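import Fermat.Agent.S26.Geom

/-!
# S26 / P10 FORMAL (helper2685): elementary calculus of `Fam`, `Same`, `LinEquiv`, `IsCartier`

Self-contained (uses only the frozen `Defs.lean`): `Same` and `LinEquiv` are congruences on the
commutative group `Fam X`, Cartier families form a subgroup, and for a morphism whose `pullFun`
is a ring homomorphism the class-level pullback `pullc` is the divisor-level pullback divided by a
principal divisor.
-/

set_option autoImplicit false

universe u

open CategoryTheory AlgebraicGeometry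

namespace Fermat.Agent.S26.FORMAL.H2685

open Fermat.Agent.S26

noncomputable section

variable {X : Scheme.{u}} [IsIntegral X]

/-! ## Units of the local rings -/

theorem isUnitAt_one (x : X) : IsUnitAt x (1 : X.functionField) :=
  ⟨Subring.one_mem _, by rw [inv_one]; exact Subring.one_mem _⟩

theorem isUnitAt_mul {x : X} {a b : X.functionField} (ha : IsUnitAt x a) (hb : IsUnitAt x b) :
    IsUnitAt x (a * b) :=
  ⟨Subring.mul_mem _ ha.1 hb.1, by rw [mul_inv]; exact Subring.mul_mem _ ha.2 hb.2⟩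

theorem isUnitAt_inv {x : X} {a : X.functionField} (ha : IsUnitAt x a) : IsUnitAt x a⁻¹ :=
  ⟨ha.2, by rw [inv_inv]; exact ha.1⟩

theorem isUnitAt_div {x : X} {a b : X.functionField} (ha : IsUnitAt x a) (hb : IsUnitAt x b) :
    IsUnitAt x (a / b) := by
  rw [div_eq_mul_inv]; exact isUnitAt_mul ha (isUnitAt_inv hb)

theorem isUnitAt_pow {x : X} {a : X.functionField} (ha : IsUnitAt x a) (k : ℕ) :
    IsUnitAt x (a ^ k) := by
  induction k with
  | zero => rw [pow_zero]; exact isUnitAt_one x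
  | succ k ih => rw [pow_succ]; exact isUnitAt_mul ih ha

/-! ## `Same` -/

theorem same_iff {D D' : Fam X} :
    Fam.Same D D' ↔ ∀ x : X, IsUnitAt x ((D x : X.functionField) / (D' x : X.functionField)) := by
  unfold Fam.Same
  simp only [Units.val_div_eq_div_val]

theorem same_refl (D : Fam X) : Fam.Same D D := by
  rw [same_iff]; intro x
  rw [div_self (Units.ne_zero _)]; exact isUnitAt_one x

theorem same_of_eq {D D' : Fam X} (h : D = D') : Fam.Same D D' := h ▸ same_refl D

theorem same_symm {D D' : Fam X} (h : Fam.Same D D') : Fam.Same D' D := by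
  rw [same_iff] at h ⊢; intro x
  have := isUnitAt_inv (h x)
  rwa [inv_div] at this

theorem same_trans {D D' D'' : Fam X} (h : Fam.Same D D') (h' : Fam.Same D' D'') :
    Fam.Same D D'' := by
  rw [same_iff] at h h' ⊢; intro x
  have := isUnitAt_mul (h x) (h' x)
  rwa [div_mul_div_cancel₀ (Units.ne_zero _)] at this

theorem same_mul {D₁ D₂ E₁ E₂ : Fam X} (h : Fam.Same D₁ D₂) (h' : Fam.Same E₁ E₂) :
    Fam.Same (D₁ * E₁) (D₂ * E₂) := by
  rw [same_iff] at h h' ⊢; intro x
  have := isUnitAt_mul (h x) (h' x)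
  simp only [Pi.mul_apply, Units.val_mul]
  rwa [div_mul_div_comm] at this

theorem same_inv {D₁ D₂ : Fam X} (h : Fam.Same D₁ D₂) : Fam.Same D₁⁻¹ D₂⁻¹ := by
  rw [same_iff] at h ⊢; intro x
  have := isUnitAt_inv (h x)
  simp only [Pi.inv_apply, Units.val_inv_eq_inv_val]
  rwa [inv_div, ← inv_div_inv] at this

theorem same_pow {D₁ D₂ : Fam X} (h : Fam.Same D₁ D₂) (k : ℕ) : Fam.Same (D₁ ^ k) (D₂ ^ k) := by
  induction k with
  | zero => simp only [pow_zero]; exact same_refl 1
  | succ k ih => simp only [pow_succ]; exact same_mul ih h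

/-! ## `LinEquiv` -/

theorem le_of_same {D D' : Fam X} (h : Fam.Same D D') : Fam.LinEquiv D D' :=
  ⟨1, by
    have : D' * Fam.const (1 : (X.functionField)ˣ) = D' := by
      funext x; simp [Fam.const]
    rw [this]; exact h⟩

theorem le_refl (D : Fam X) : Fam.LinEquiv D D := le_of_same (same_refl D)

theorem le_of_eq {D D' : Fam X} (h : D = D') : Fam.LinEquiv D D' := h ▸ le_refl D

theorem const_mul (a b : (X.functionField)ˣ) :
    (Fam.const a * Fam.const b : Fam X) = Fam.const (a * b) := rfl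

theorem const_inv (a : (X.functionField)ˣ) : ((Fam.const a)⁻¹ : Fam X) = Fam.const a⁻¹ := rfl

theorem const_pow (a : (X.functionField)ˣ) (k : ℕ) :
    ((Fam.const a) ^ k : Fam X) = Fam.const (a ^ k) := rfl

theorem const_one : (Fam.const (1 : (X.functionField)ˣ) : Fam X) = 1 := rfl

theorem le_symm {D D' : Fam X} (h : Fam.LinEquiv D D') : Fam.LinEquiv D' D := by
  obtain ⟨a, ha⟩ := h
  refine ⟨a⁻¹, ?_⟩
  have h1 : Fam.Same (D * Fam.const a⁻¹) (D' * Fam.const a * Fam.const a⁻¹) :=
    same_mul ha (same_refl _)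
  have h2 : D' * Fam.const a * Fam.const a⁻¹ = D' := by
    rw [mul_assoc, const_mul, mul_inv_cancel, const_one, mul_one]
  rw [h2] at h1
  exact same_symm h1

theorem le_trans {D D' D'' : Fam X} (h : Fam.LinEquiv D D') (h' : Fam.LinEquiv D' D'') :
    Fam.LinEquiv D D'' := by
  obtain ⟨a, ha⟩ := h
  obtain ⟨b, hb⟩ := h'
  refine ⟨b * a, ?_⟩
  have h1 : Fam.Same (D' * Fam.const a) (D'' * Fam.const b * Fam.const a) :=
    same_mul hb (same_refl _)
  have h2 : D'' * Fam.const b * Fam.const a = D'' * Fam.const (b * a) := by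
    rw [mul_assoc, const_mul]
  rw [h2] at h1
  exact same_trans ha h1

theorem le_mul {D₁ D₂ E₁ E₂ : Fam X} (h : Fam.LinEquiv D₁ D₂) (h' : Fam.LinEquiv E₁ E₂) :
    Fam.LinEquiv (D₁ * E₁) (D₂ * E₂) := by
  obtain ⟨a, ha⟩ := h
  obtain ⟨b, hb⟩ := h'
  refine ⟨a * b, ?_⟩
  have h1 := same_mul ha hb
  have h2 : D₂ * Fam.const a * (E₂ * Fam.const b) = D₂ * E₂ * Fam.const (a * b) := by
    rw [← const_mul]; exact mul_mul_mul_comm _ _ _ _
  rwa [h2] at h1

theorem le_inv {D₁ D₂ : Fam X} (h : Fam.LinEquiv D₁ D₂) : Fam.LinEquiv D₁⁻¹ D₂⁻¹ := by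
  obtain ⟨a, ha⟩ := h
  refine ⟨a⁻¹, ?_⟩
  have h1 := same_inv ha
  have h2 : (D₂ * Fam.const a)⁻¹ = D₂⁻¹ * Fam.const a⁻¹ := by
    rw [mul_inv, const_inv]
  rwa [h2] at h1

theorem le_pow {D₁ D₂ : Fam X} (h : Fam.LinEquiv D₁ D₂) (k : ℕ) :
    Fam.LinEquiv (D₁ ^ k) (D₂ ^ k) := by
  induction k with
  | zero => simp only [pow_zero]; exact le_refl 1
  | succ k ih => simp only [pow_succ]; exact le_mul ih h

theorem le_div {D₁ D₂ E₁ E₂ : Fam X} (h : Fam.LinEquiv D₁ D₂) (h' : Fam.LinEquiv E₁ E₂) :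
    Fam.LinEquiv (D₁ / E₁) (D₂ / E₂) := by
  rw [div_eq_mul_inv, div_eq_mul_inv]; exact le_mul h (le_inv h')

/-- A family linearly equivalent to its own square is trivial. -/
theorem le_one_of_le_sq {P : Fam X} (h : Fam.LinEquiv P (P * P)) : Fam.LinEquiv P 1 := by
  have h1 := le_mul (le_symm h) (le_refl P⁻¹)
  have e1 : P * P * P⁻¹ = P := by rw [mul_assoc, mul_inv_cancel, mul_one]
  have e2 : P * P⁻¹ = 1 := mul_inv_cancel P
  rwa [e1, e2] at h1

/-! ## Cartier families -/

theorem isCartier_iff {D : Fam X} :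
    D.IsCartier ↔ ∀ x : X, ∃ U : X.Opens, x ∈ U ∧
      ∀ y ∈ U, IsUnitAt y ((D y : X.functionField) / (D x : X.functionField)) := by
  unfold Fam.IsCartier
  simp only [Units.val_div_eq_div_val]

theorem isCartier_one : (1 : Fam X).IsCartier := by
  rw [isCartier_iff]; intro x
  refine ⟨⊤, trivial, fun y _ => ?_⟩
  simp only [Pi.one_apply, Units.val_one, div_one]
  exact isUnitAt_one y

theorem isCartier_const (a : (X.functionField)ˣ) : (Fam.const a : Fam X).IsCartier := by
  rw [isCartier_iff]; intro x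
  refine ⟨⊤, trivial, fun y _ => ?_⟩
  simp only [Fam.const]
  rw [div_self (Units.ne_zero _)]
  exact isUnitAt_one y

theorem isCartier_mul {D E : Fam X} (hD : D.IsCartier) (hE : E.IsCartier) :
    (D * E).IsCartier := by
  rw [isCartier_iff] at hD hE ⊢; intro x
  obtain ⟨U, hxU, hU⟩ := hD x
  obtain ⟨V, hxV, hV⟩ := hE x
  refine ⟨U ⊓ V, ⟨hxU, hxV⟩, fun y hy => ?_⟩
  have := isUnitAt_mul (hU y hy.1) (hV y hy.2)
  simp only [Pi.mul_apply, Units.val_mul]
  rwa [div_mul_div_comm] at this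

theorem isCartier_inv {D : Fam X} (hD : D.IsCartier) : (D⁻¹).IsCartier := by
  rw [isCartier_iff] at hD ⊢; intro x
  obtain ⟨U, hxU, hU⟩ := hD x
  refine ⟨U, hxU, fun y hy => ?_⟩
  have := isUnitAt_inv (hU y hy)
  simp only [Pi.inv_apply, Units.val_inv_eq_inv_val]
  rwa [inv_div, ← inv_div_inv] at this

theorem isCartier_pow {D : Fam X} (hD : D.IsCartier) (k : ℕ) : (D ^ k).IsCartier := by
  induction k with
  | zero => simp only [pow_zero]; exact isCartier_one
  | succ k ih => simp only [pow_succ]; exact isCartier_mul ih hD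

theorem isCartier_div {D E : Fam X} (hD : D.IsCartier) (hE : E.IsCartier) :
    (D / E).IsCartier := by
  rw [div_eq_mul_inv]; exact isCartier_mul hD (isCartier_inv hE)

/-! ## `toUnit` and pullbacks along morphisms with a ring-homomorphic `pullFun` -/

theorem toUnit_val {F : Type u} [Field F] {v : F} (hv : v ≠ 0) : ((toUnit v : Fˣ) : F) = v := by
  unfold toUnit
  rw [dif_neg hv]; rfl

theorem toUnit_mul {F : Type u} [Field F] {v w : F} (hv : v ≠ 0) (hw : w ≠ 0) :
    toUnit (v * w) = toUnit v * toUnit w := by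
  apply Units.ext
  rw [Units.val_mul, toUnit_val hv, toUnit_val hw, toUnit_val (mul_ne_zero hv hw)]

theorem toUnit_inv {F : Type u} [Field F] {v : F} (hv : v ≠ 0) :
    toUnit v⁻¹ = (toUnit v)⁻¹ := by
  apply Units.ext
  rw [Units.val_inv_eq_inv_val, toUnit_val hv, toUnit_val (inv_ne_zero hv)]

/-- If `pullFun φ` is a ring homomorphism, `pullc φ D` is `pullback φ D` divided by a principal
divisor (as families, on the nose). -/
theorem pullc_eq_of_ringHom {Y : Scheme.{u}} [IsIntegral Y] (φ : Y ⟶ X)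
    (ι : X.functionField →+* Y.functionField) (hι : ∀ v, ι v = pullFun φ v) (D : Fam X) :
    Fam.pullc φ D = Fam.pullback φ D *
      (Fam.const (toUnit (ι (D (φ.base (genericPoint Y)) : X.functionField))))⁻¹ := by
  funext y
  have hne : ∀ a : (X.functionField)ˣ, ι (a : X.functionField) ≠ 0 := fun a =>
    (map_ne_zero ι).mpr (Units.ne_zero a)
  simp only [Fam.pullc, Fam.pullback, Fam.const, Pi.mul_apply, Pi.inv_apply, Units.val_mul,
    Units.val_inv_eq_inv_val, ← hι, map_mul, map_inv₀]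
  rw [toUnit_mul (hne _) (inv_ne_zero (hne _)), toUnit_inv (hne _)]

theorem pullback_le_pullc_of_ringHom {Y : Scheme.{u}} [IsIntegral Y] (φ : Y ⟶ X)
    (ι : X.functionField →+* Y.functionField) (hι : ∀ v, ι v = pullFun φ v) (D : Fam X) :
    Fam.LinEquiv (Fam.pullback φ D) (Fam.pullc φ D) := by
  refine ⟨toUnit (ι (D (φ.base (genericPoint Y)) : X.functionField)), ?_⟩
  rw [pullc_eq_of_ringHom φ ι hι D, mul_assoc, inv_mul_cancel, mul_one]
  exact same_refl _

end

end Fermat.Agent.S26.FORMAL.H2685
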