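import Fermat.Agent.S26.Geom
import Fermat.Agent.S26.FORMAL.FamCalc2685

/-!
# S26 / P10 FORMAL (helper2685): formal consequences of the frozen P5 exports on `Fam.pullc`

Uses the frozen exports `pullc_mul`, `pullc_linEquiv`, `pullc_comp`, `pullc_id`, `isCartier_pullc`
of `Geom.lean` as black boxes.
-/

set_option autoImplicit false

universe u

open CategoryTheory CategoryTheory.Limits AlgebraicGeometry

namespace Fermat.Agent.S26.FORMAL.H2685

open Fermat.Agent.S26

noncomputable section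

variable {X Y Z : Scheme.{u}} [IsIntegral X] [IsIntegral Y] [IsIntegral Z]

/-- `pullc` of the trivial family is trivial (formal consequence of multiplicativity). -/
theorem pullc_one_le (φ : Y ⟶ X) : Fam.LinEquiv (Fam.pullc φ (1 : Fam X)) 1 := by
  have h := (pullc_mul φ (1 : Fam X) 1 isCartier_one isCartier_one).1
  rw [mul_one] at h
  exact le_one_of_le_sq (le_of_same h)

/-- `pullc` is multiplicative up to linear equivalence. -/
theorem pullc_mul_le (φ : Y ⟶ X) (D E : Fam X) (hD : D.IsCartier) (hE : E.IsCartier) :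
    Fam.LinEquiv (Fam.pullc φ (D * E)) (Fam.pullc φ D * Fam.pullc φ E) :=
  le_of_same (pullc_mul φ D E hD hE).1

/-- `pullc` commutes with inverses up to linear equivalence. -/
theorem pullc_inv_le (φ : Y ⟶ X) (D : Fam X) (hD : D.IsCartier) :
    Fam.LinEquiv (Fam.pullc φ D⁻¹) (Fam.pullc φ D)⁻¹ :=
  le_of_same (pullc_mul φ D D hD hD).2

/-- `pullc` commutes with powers up to linear equivalence. -/
theorem pullc_pow_le (φ : Y ⟶ X) (D : Fam X) (hD : D.IsCartier) (k : ℕ) :
    Fam.LinEquiv (Fam.pullc φ (D ^ k)) ((Fam.pullc φ D) ^ k) := by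
  induction k with
  | zero => simp only [pow_zero]; exact pullc_one_le φ
  | succ k ih =>
    simp only [pow_succ]
    exact le_trans (pullc_mul_le φ (D ^ k) D (isCartier_pow hD k) hD) (le_mul ih (le_refl _))

/-- `pullc` of a principal class is principal. -/
theorem pullc_le_one (φ : Y ⟶ X) (D : Fam X) (hD : D.IsCartier) (h : Fam.LinEquiv D 1) :
    Fam.LinEquiv (Fam.pullc φ D) 1 :=
  le_trans (pullc_linEquiv φ D 1 hD isCartier_one h) (pullc_one_le φ)

/-- If `φ^* M` is principal, so is `(ψ ≫ φ)^* M`. -/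
theorem pullc_comp_le_one (ψ : Z ⟶ Y) (φ : Y ⟶ X) (M : Fam X) (hM : M.IsCartier)
    (h : Fam.LinEquiv (Fam.pullc φ M) 1) : Fam.LinEquiv (Fam.pullc (ψ ≫ φ) M) 1 :=
  le_trans (pullc_comp ψ φ M hM) (pullc_le_one ψ _ (isCartier_pullc φ M hM) h)

/-- If `(ψ ≫ φ)^* M` is principal, so is `ψ^* (φ^* M)`. -/
theorem pullc_pullc_le_one (ψ : Z ⟶ Y) (φ : Y ⟶ X) (M : Fam X) (hM : M.IsCartier)
    (h : Fam.LinEquiv (Fam.pullc (ψ ≫ φ) M) 1) : Fam.LinEquiv (Fam.pullc ψ (Fam.pullc φ M)) 1 :=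
  le_trans (le_symm (pullc_comp ψ φ M hM)) h

/-- Transport along a retraction: if `θ' ≫ θ = 𝟙` and `θ^* M` is principal then `M` is. -/
theorem le_one_of_section (θ : Y ⟶ X) (θ' : X ⟶ Y) (hsec : θ' ≫ θ = 𝟙 X) (M : Fam X)
    (hM : M.IsCartier) (h : Fam.LinEquiv (Fam.pullc θ M) 1) : Fam.LinEquiv M 1 := by
  have h1 : Fam.LinEquiv (Fam.pullc (θ' ≫ θ) M) 1 := pullc_comp_le_one θ' θ M hM h
  rw [hsec] at h1
  exact le_trans (le_symm (pullc_id M hM)) h1

end

end Fermat.Agent.S26.FORMAL.H2685
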