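import Fermat.Agent.S26.TChainDefs
import Fermat.Agent.S26.FORMAL.PullcCalc2685

/-!
# S26 / P10 FORMAL (helper2685): Yoneda calculus of the group law (`addMap`, `negMap`, `[k]`)
and of the cube expression `thetaFam`

No frozen export is used in the first part (pure `RelativeGroupLaw`); the `thetaFam` part uses the
P5 calculus of `Fam.pullc` (`pullc_mul`, `pullc_comp`, `isCartier_pullc`,
`pullc_of_factors_through_point`).
-/

set_option autoImplicit false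

universe u

open CategoryTheory CategoryTheory.Limits AlgebraicGeometry NeronModelInfra GoodReductionJacobian

namespace Fermat.Agent.S26.FORMAL.H2685

open Fermat.Agent.S26

noncomputable section

variable {K : Type u} [Field K] {A : Scheme.{u}} {f : A ⟶ Spec (CommRingCat.of K)}
  (L : RelativeGroupLaw K f)

/-! ## The group law on `T`-points -/

section Group

variable {T : Scheme.{u}}

/-- `addMap` in terms of the group of `T`-points over an arbitrary structure map. -/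
theorem addMap_eq (t : T ⟶ Spec (CommRingCat.of K)) (α β : T ⟶ A)
    (hα : α ≫ f = t) (hβ : β ≫ f = t) (h : α ≫ f = β ≫ f) :
    addMap L α β h = (L.mul t ⟨α, hα⟩ ⟨β, hβ⟩).1 := by
  subst hα
  rfl

theorem addMap_congr {α α' β β' : T ⟶ A} (hα : α = α') (hβ : β = β')
    (h : α ≫ f = β ≫ f) (h' : α' ≫ f = β' ≫ f) : addMap L α β h = addMap L α' β' h' := by
  subst hα; subst hβ; rfl

theorem addMap_over (α β : T ⟶ A) (h : α ≫ f = β ≫ f) : addMap L α β h ≫ f = α ≫ f :=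
  (L.mul (α ≫ f) ⟨α, rfl⟩ ⟨β, h.symm⟩).2

/-- Naturality of `addMap`. -/
theorem comp_addMap {T' : Scheme.{u}} (ψ : T' ⟶ T) (α β : T ⟶ A) (h : α ≫ f = β ≫ f)
    (h' : (ψ ≫ α) ≫ f = (ψ ≫ β) ≫ f) :
    ψ ≫ addMap L α β h = addMap L (ψ ≫ α) (ψ ≫ β) h' :=
  congrArg Subtype.val (L.mul_natural (α ≫ f) ((ψ ≫ α) ≫ f) ψ (Category.assoc ψ α f).symm
    ⟨α, rfl⟩ ⟨β, h.symm⟩)

/-- The zero map of `T` is the structure map followed by the origin. -/
theorem one_val_eq (t : T ⟶ Spec (CommRingCat.of K)) :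
    (L.one t).1 = t ≫ (L.one (𝟙 _)).1 :=
  (congrArg Subtype.val (L.one_natural (𝟙 _) t t (Category.comp_id t))).symm

theorem addMap_zero_left (t : T ⟶ Spec (CommRingCat.of K)) (α β : T ⟶ A)
    (hα : α = t ≫ (L.one (𝟙 _)).1) (hβ : β ≫ f = t) (h : α ≫ f = β ≫ f) :
    addMap L α β h = β := by
  have hα' : α = (L.one t).1 := hα.trans (one_val_eq L t).symm
  subst hα'
  rw [addMap_eq L t _ β (L.one t).2 hβ]
  exact congrArg Subtype.val (L.one_mul t ⟨β, hβ⟩)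

theorem addMap_zero_right (t : T ⟶ Spec (CommRingCat.of K)) (α β : T ⟶ A)
    (hα : α ≫ f = t) (hβ : β = t ≫ (L.one (𝟙 _)).1) (h : α ≫ f = β ≫ f) :
    addMap L α β h = α := by
  have hβ' : β = (L.one t).1 := hβ.trans (one_val_eq L t).symm
  subst hβ'
  rw [addMap_eq L t α _ hα (L.one t).2]
  exact congrArg Subtype.val (L.mul_one t ⟨α, hα⟩)

/-- Naturality of the inverse. -/
theorem inv_natural' {T' : Scheme.{u}} (t : T ⟶ Spec (CommRingCat.of K))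
    (t' : T' ⟶ Spec (CommRingCat.of K)) (ψ : T' ⟶ T) (hψ : ψ ≫ t = t')
    (x : SchemeHomOver t f) :
    schemeHomOverComp ψ hψ (L.inv t x) = L.inv t' (schemeHomOverComp ψ hψ x) := by
  let _ := L.pointGroup t'
  have h : schemeHomOverComp ψ hψ (L.inv t x) * schemeHomOverComp ψ hψ x = 1 := by
    show L.mul t' _ _ = L.one t'
    rw [← L.mul_natural, L.inv_mul_cancel, L.one_natural]
  exact eq_inv_of_mul_eq_one_left h

/-- `σ ≫ [k]` is the `k`-th multiple of the `T`-point `σ`. -/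
theorem comp_schemeNsmul (t : T ⟶ Spec (CommRingCat.of K)) (σ : T ⟶ A) (hσ : σ ≫ f = t)
    (k : ℕ) : σ ≫ L.schemeNsmul k = (L.nsmul t k ⟨σ, hσ⟩).1 := by
  have h := L.nsmul_natural f t σ hσ k RelativeGroupLaw.idPoint
  have e : schemeHomOverComp σ hσ (RelativeGroupLaw.idPoint (f := f)) = ⟨σ, hσ⟩ :=
    Subtype.ext (Category.comp_id σ)
  rw [e] at h
  exact congrArg Subtype.val h

/-- `σ ≫ [-1]` is the inverse of the `T`-point `σ`. -/
theorem comp_negMap (t : T ⟶ Spec (CommRingCat.of K)) (σ : T ⟶ A) (hσ : σ ≫ f = t) :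
    σ ≫ negMap L = (L.inv t ⟨σ, hσ⟩).1 := by
  have h := inv_natural' L f t σ hσ RelativeGroupLaw.idPoint
  have e : schemeHomOverComp σ hσ (RelativeGroupLaw.idPoint (f := f)) = ⟨σ, hσ⟩ :=
    Subtype.ext (Category.comp_id σ)
  rw [e] at h
  exact congrArg Subtype.val h

theorem negMap_over : negMap L ≫ f = f := (L.inv f RelativeGroupLaw.idPoint).2

theorem comp_schemeNsmul_over (σ : T ⟶ A) (k : ℕ) : (σ ≫ L.schemeNsmul k) ≫ f = σ ≫ f := by
  rw [Category.assoc, L.schemeNsmul_over]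

theorem comp_negMap_over (σ : T ⟶ A) : (σ ≫ negMap L) ≫ f = σ ≫ f := by
  rw [Category.assoc, negMap_over]

/-- `[-1] ∘ [-1] = id`. -/
theorem negMap_negMap : negMap L ≫ negMap L = 𝟙 A := by
  rw [comp_negMap L f (negMap L) (negMap_over L)]
  let _ := L.pointGroup f
  have : L.inv f ⟨negMap L, negMap_over L⟩ = RelativeGroupLaw.idPoint :=
    inv_inv (RelativeGroupLaw.idPoint (f := f))
  rw [this]

theorem isIso_negMap : IsIso (negMap L) :=
  ⟨negMap L, negMap_negMap L, negMap_negMap L⟩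

/-- `[k+1] σ = [k] σ + σ`. -/
theorem addMap_nsmul_self (σ : T ⟶ A) (k : ℕ)
    (h : (σ ≫ L.schemeNsmul k) ≫ f = σ ≫ f) :
    addMap L (σ ≫ L.schemeNsmul k) σ h = σ ≫ L.schemeNsmul (k + 1) := by
  rw [addMap_eq L (σ ≫ f) _ σ h rfl, comp_schemeNsmul L (σ ≫ f) σ rfl (k + 1)]
  have e : (⟨σ ≫ L.schemeNsmul k, h⟩ : SchemeHomOver (σ ≫ f) f) = L.nsmul (σ ≫ f) k ⟨σ, rfl⟩ :=
    Subtype.ext (comp_schemeNsmul L (σ ≫ f) σ rfl k)
  rw [e]
  rfl

/-- `[k+1] σ + (-σ) = [k] σ`. -/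
theorem addMap_nsmul_succ_neg (σ : T ⟶ A) (k : ℕ)
    (h : (σ ≫ L.schemeNsmul (k + 1)) ≫ f = (σ ≫ negMap L) ≫ f) :
    addMap L (σ ≫ L.schemeNsmul (k + 1)) (σ ≫ negMap L) h = σ ≫ L.schemeNsmul k := by
  rw [addMap_eq L (σ ≫ f) _ _ (comp_schemeNsmul_over L σ (k + 1)) (comp_negMap_over L σ),
    comp_schemeNsmul L (σ ≫ f) σ rfl k]
  have e1 : (⟨σ ≫ L.schemeNsmul (k + 1), comp_schemeNsmul_over L σ (k + 1)⟩ :
      SchemeHomOver (σ ≫ f) f) = L.mul (σ ≫ f) (L.nsmul (σ ≫ f) k ⟨σ, rfl⟩) ⟨σ, rfl⟩ :=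
    Subtype.ext (comp_schemeNsmul L (σ ≫ f) σ rfl (k + 1))
  have e2 : (⟨σ ≫ negMap L, comp_negMap_over L σ⟩ : SchemeHomOver (σ ≫ f) f) =
      L.inv (σ ≫ f) ⟨σ, rfl⟩ := Subtype.ext (comp_negMap L (σ ≫ f) σ rfl)
  rw [e1, e2, L.mul_assoc, L.mul_inv_cancel, L.mul_one]

/-- `σ + (-σ) = 0`. -/
theorem addMap_self_neg (σ : T ⟶ A) (h : σ ≫ f = (σ ≫ negMap L) ≫ f) :
    addMap L σ (σ ≫ negMap L) h = (σ ≫ f) ≫ (L.one (𝟙 _)).1 := by
  rw [addMap_eq L (σ ≫ f) σ _ rfl (comp_negMap_over L σ), ← one_val_eq]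
  have e2 : (⟨σ ≫ negMap L, comp_negMap_over L σ⟩ : SchemeHomOver (σ ≫ f) f) =
      L.inv (σ ≫ f) ⟨σ, rfl⟩ := Subtype.ext (comp_negMap L (σ ≫ f) σ rfl)
  rw [e2, L.mul_inv_cancel]

/-- `[0] σ = 0`. -/
theorem comp_schemeNsmul_zero (σ : T ⟶ A) :
    σ ≫ L.schemeNsmul 0 = (σ ≫ f) ≫ (L.one (𝟙 _)).1 := by
  rw [comp_schemeNsmul L (σ ≫ f) σ rfl 0, ← one_val_eq]
  rfl

/-- `[1] σ = σ`. -/
theorem comp_schemeNsmul_one (σ : T ⟶ A) : σ ≫ L.schemeNsmul 1 = σ := by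
  rw [comp_schemeNsmul L (σ ≫ f) σ rfl 1, L.nsmul_one_apply]

/-- The origin is fixed by `[k]`. -/
theorem origin_comp_schemeNsmul (k : ℕ) :
    (L.one (𝟙 _)).1 ≫ L.schemeNsmul k = (L.one (𝟙 _)).1 := by
  rw [comp_schemeNsmul L (𝟙 _) _ (L.one (𝟙 _)).2 k]
  exact congrArg Subtype.val (L.nsmul_unit (𝟙 _) k)

/-- The origin is fixed by `[-1]`. -/
theorem origin_comp_negMap : (L.one (𝟙 _)).1 ≫ negMap L = (L.one (𝟙 _)).1 := by
  rw [comp_negMap L (𝟙 _) _ (L.one (𝟙 _)).2]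
  let _ := L.pointGroup (𝟙 (Spec (CommRingCat.of K)))
  have : L.inv (𝟙 _) (L.one (𝟙 _)) = L.one (𝟙 _) := inv_one
  exact congrArg Subtype.val this

end Group

end

end Fermat.Agent.S26.FORMAL.H2685
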