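import Fermat.Agent.S26.FORMAL.Reduce2685
import Fermat.Agent.S26.FORMAL.GroupCalc2685

/-!
# S26 / P10 FORMAL (helper2685): CUBEX with the EXACT frozen signature

`cubeX_of_exports` = frozen `cubeX` (TChain.lean): the theorem of the cube for three pointed
morphisms from a product of curves to `A`, from REDUCE (`cube3G_level3`, i.e. the frozen exports
`seesaw`, `cube3_curves`, `isIntegral_prod`) and the P5 calculus of `Fam.pullc`
(`pullc_mul`, `pullc_comp`, `pullc_linEquiv`, `pullc_id`, `isCartier_pullc`,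
`pullc_of_factors_through_point`).
-/

set_option autoImplicit false

universe u

open CategoryTheory CategoryTheory.Limits AlgebraicGeometry NeronModelInfra GoodReductionJacobian

namespace Fermat.Agent.S26.FORMAL.H2685

open Fermat.Agent.S26

noncomputable section

variable {K : Type u} [Field K] [IsAlgClosed K] {A : Scheme.{u}}
  {f : A ⟶ Spec (CommRingCat.of K)} [IsIntegral A] (L : RelativeGroupLaw K f)

/-! ## The shape of `thetaFam` -/

section Theta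

variable {T : Scheme.{u}} [IsIntegral T] {sT : T ⟶ Spec (CommRingCat.of K)}

/-- `thetaFam` with the four sums replaced by given morphisms. -/
theorem thetaFam_eq (α β γ : T ⟶ A) (hα : α ≫ f = sT) (hβ : β ≫ f = sT) (hγ : γ ≫ f = sT)
    (D : Fam A) (ab ac bc abc : T ⟶ A)
    (hab : addMap L α β (hα.trans hβ.symm) = ab)
    (hac : addMap L α γ (hα.trans hγ.symm) = ac)
    (hbc : addMap L β γ (hβ.trans hγ.symm) = bc)
    (habc : addMap L (addMap L α β (hα.trans hβ.symm)) γ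
      ((addMap_comp L α β _).trans (hα.trans hγ.symm)) = abc) :
    thetaFam L α β γ hα hβ hγ D =
      Fam.pullc abc D * (Fam.pullc ab D)⁻¹ * (Fam.pullc ac D)⁻¹ * (Fam.pullc bc D)⁻¹ *
        Fam.pullc α D * Fam.pullc β D * Fam.pullc γ D := by
  subst hab hac hbc habc
  rfl

theorem thetaFam_congr {sT' : T ⟶ Spec (CommRingCat.of K)} {α β γ α' β' γ' : T ⟶ A}
    (hα : α ≫ f = sT) (hβ : β ≫ f = sT) (hγ : γ ≫ f = sT)
    (hα' : α' ≫ f = sT') (hβ' : β' ≫ f = sT') (hγ' : γ' ≫ f = sT')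
    (eα : α = α') (eβ : β = β') (eγ : γ = γ') (D : Fam A) :
    thetaFam L α β γ hα hβ hγ D = thetaFam L α' β' γ' hα' hβ' hγ' D := by
  subst eα eβ eγ
  obtain rfl : sT = sT' := hα.symm.trans hα'
  rfl

theorem isCartier_thetaFam (α β γ : T ⟶ A) (hα : α ≫ f = sT) (hβ : β ≫ f = sT)
    (hγ : γ ≫ f = sT) (D : Fam A) (hD : D.IsCartier) :
    (thetaFam L α β γ hα hβ hγ D).IsCartier := by
  unfold thetaFam
  exact isCartier_mul (isCartier_mul (isCartier_mul (isCartier_mul (isCartier_mul (isCartier_mul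
    (isCartier_pullc _ D hD) (isCartier_inv (isCartier_pullc _ D hD)))
    (isCartier_inv (isCartier_pullc _ D hD))) (isCartier_inv (isCartier_pullc _ D hD)))
    (isCartier_pullc _ D hD)) (isCartier_pullc _ D hD)) (isCartier_pullc _ D hD)

/-- Pullback of a seven-term cube expression. -/
theorem pullc_shape7 {P : Scheme.{u}} [IsIntegral P] (j : P ⟶ T) (D : Fam A) (hD : D.IsCartier)
    (φ₁ φ₂ φ₃ φ₄ φ₅ φ₆ φ₇ : T ⟶ A) :
    Fam.LinEquiv
      (Fam.pullc j (Fam.pullc φ₁ D * (Fam.pullc φ₂ D)⁻¹ * (Fam.pullc φ₃ D)⁻¹ *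
        (Fam.pullc φ₄ D)⁻¹ * Fam.pullc φ₅ D * Fam.pullc φ₆ D * Fam.pullc φ₇ D))
      (Fam.pullc (j ≫ φ₁) D * (Fam.pullc (j ≫ φ₂) D)⁻¹ * (Fam.pullc (j ≫ φ₃) D)⁻¹ *
        (Fam.pullc (j ≫ φ₄) D)⁻¹ * Fam.pullc (j ≫ φ₅) D * Fam.pullc (j ≫ φ₆) D *
        Fam.pullc (j ≫ φ₇) D) := by
  have c : ∀ φ : T ⟶ A, (Fam.pullc φ D).IsCartier := fun φ => isCartier_pullc φ D hD
  have ci : ∀ φ : T ⟶ A, ((Fam.pullc φ D)⁻¹).IsCartier := fun φ => isCartier_inv (c φ)
  have h : ∀ φ : T ⟶ A, Fam.LinEquiv (Fam.pullc j (Fam.pullc φ D)) (Fam.pullc (j ≫ φ) D) :=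
    fun φ => le_symm (pullc_comp j φ D hD)
  have hi : ∀ φ : T ⟶ A, Fam.LinEquiv (Fam.pullc j (Fam.pullc φ D)⁻¹)
      (Fam.pullc (j ≫ φ) D)⁻¹ :=
    fun φ => le_trans (pullc_inv_le j _ (c φ)) (le_inv (h φ))
  have c2 := isCartier_mul (c φ₁) (ci φ₂)
  have c3 := isCartier_mul c2 (ci φ₃)
  have c4 := isCartier_mul c3 (ci φ₄)
  have c5 := isCartier_mul c4 (c φ₅)
  have c6 := isCartier_mul c5 (c φ₆)
  have s2 := le_trans (pullc_mul_le j _ _ (c φ₁) (ci φ₂)) (le_mul (h φ₁) (hi φ₂))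
  have s3 := le_trans (pullc_mul_le j _ _ c2 (ci φ₃)) (le_mul s2 (hi φ₃))
  have s4 := le_trans (pullc_mul_le j _ _ c3 (ci φ₄)) (le_mul s3 (hi φ₄))
  have s5 := le_trans (pullc_mul_le j _ _ c4 (c φ₅)) (le_mul s4 (h φ₅))
  have s6 := le_trans (pullc_mul_le j _ _ c5 (c φ₆)) (le_mul s5 (h φ₆))
  exact le_trans (pullc_mul_le j _ _ c6 (c φ₇)) (le_mul s6 (h φ₇))

/-- Naturality of the cube expression. -/
theorem pullc_thetaFam_le {P : Scheme.{u}} [IsIntegral P] {sP : P ⟶ Spec (CommRingCat.of K)}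
    (j : P ⟶ T) (α β γ : T ⟶ A) (hα : α ≫ f = sT) (hβ : β ≫ f = sT) (hγ : γ ≫ f = sT)
    (hα' : (j ≫ α) ≫ f = sP) (hβ' : (j ≫ β) ≫ f = sP) (hγ' : (j ≫ γ) ≫ f = sP)
    (D : Fam A) (hD : D.IsCartier) :
    Fam.LinEquiv (Fam.pullc j (thetaFam L α β γ hα hβ hγ D))
      (thetaFam L (j ≫ α) (j ≫ β) (j ≫ γ) hα' hβ' hγ' D) := by
  rw [thetaFam_eq L (j ≫ α) (j ≫ β) (j ≫ γ) hα' hβ' hγ' D
    (j ≫ addMap L α β (hα.trans hβ.symm)) (j ≫ addMap L α γ (hα.trans hγ.symm))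
    (j ≫ addMap L β γ (hβ.trans hγ.symm))
    (j ≫ addMap L (addMap L α β (hα.trans hβ.symm)) γ
      ((addMap_comp L α β _).trans (hα.trans hγ.symm)))
    (comp_addMap L j α β _ _).symm (comp_addMap L j α γ _ _).symm
    (comp_addMap L j β γ _ _).symm
    ((comp_addMap L j _ γ _ (by
      rw [Category.assoc, addMap_comp, ← Category.assoc, hα', hγ'])).trans
      (addMap_congr L (comp_addMap L j α β _ (hα'.trans hβ'.symm)) rfl _ _)).symm]
  exact pullc_shape7 j D hD _ _ _ _ _ _ _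

end Theta

/-! ## Degenerate cases: one of the three morphisms is zero -/

section Zero

variable {T : Scheme.{u}} [IsIntegral T] {sT : T ⟶ Spec (CommRingCat.of K)}

theorem comm_cancel₁ {G : Type*} [CommGroup G] (a b c z : G) :
    a * b⁻¹ * c⁻¹ * a⁻¹ * z * b * c = z := by
  have : a * b⁻¹ * c⁻¹ * a⁻¹ * z * b * c = (a * a⁻¹) * (b⁻¹ * b) * (c⁻¹ * c) * z := by ac_rfl
  rw [this, mul_inv_cancel, inv_mul_cancel, inv_mul_cancel, one_mul, one_mul, one_mul]

theorem comm_cancel₂ {G : Type*} [CommGroup G] (a b c z : G) :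
    a * b⁻¹ * a⁻¹ * c⁻¹ * b * z * c = z := by
  have : a * b⁻¹ * a⁻¹ * c⁻¹ * b * z * c = (a * a⁻¹) * (b⁻¹ * b) * (c⁻¹ * c) * z := by ac_rfl
  rw [this, mul_inv_cancel, inv_mul_cancel, inv_mul_cancel, one_mul, one_mul, one_mul]

theorem comm_cancel₃ {G : Type*} [CommGroup G] (a b c z : G) :
    a * a⁻¹ * b⁻¹ * c⁻¹ * b * c * z = z := by
  have : a * a⁻¹ * b⁻¹ * c⁻¹ * b * c * z = (a * a⁻¹) * (b⁻¹ * b) * (c⁻¹ * c) * z := by ac_rfl
  rw [this, mul_inv_cancel, inv_mul_cancel, inv_mul_cancel, one_mul, one_mul, one_mul]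

theorem thetaFam_zero₁ (α β γ : T ⟶ A) (hα : α ≫ f = sT) (hβ : β ≫ f = sT) (hγ : γ ≫ f = sT)
    (h0 : α = sT ≫ (L.one (𝟙 _)).1) (D : Fam A) (hD : D.IsCartier) :
    Fam.LinEquiv (thetaFam L α β γ hα hβ hγ D) 1 := by
  rw [thetaFam_eq L α β γ hα hβ hγ D β γ (addMap L β γ (hβ.trans hγ.symm))
    (addMap L β γ (hβ.trans hγ.symm))
    (addMap_zero_left L sT α β h0 hβ _) (addMap_zero_left L sT α γ h0 hγ _) rfl
    (addMap_congr L (addMap_zero_left L sT α β h0 hβ _) rfl _ _), comm_cancel₁, h0]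
  exact pullc_of_factors_through_point sT _ D hD

theorem thetaFam_zero₂ (α β γ : T ⟶ A) (hα : α ≫ f = sT) (hβ : β ≫ f = sT) (hγ : γ ≫ f = sT)
    (h0 : β = sT ≫ (L.one (𝟙 _)).1) (D : Fam A) (hD : D.IsCartier) :
    Fam.LinEquiv (thetaFam L α β γ hα hβ hγ D) 1 := by
  rw [thetaFam_eq L α β γ hα hβ hγ D α (addMap L α γ (hα.trans hγ.symm)) γ
    (addMap L α γ (hα.trans hγ.symm))
    (addMap_zero_right L sT α β hα h0 _) rfl (addMap_zero_left L sT β γ h0 hγ _)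
    (addMap_congr L (addMap_zero_right L sT α β hα h0 _) rfl _ _), comm_cancel₂, h0]
  exact pullc_of_factors_through_point sT _ D hD

theorem thetaFam_zero₃ (α β γ : T ⟶ A) (hα : α ≫ f = sT) (hβ : β ≫ f = sT) (hγ : γ ≫ f = sT)
    (h0 : γ = sT ≫ (L.one (𝟙 _)).1) (D : Fam A) (hD : D.IsCartier) :
    Fam.LinEquiv (thetaFam L α β γ hα hβ hγ D) 1 := by
  rw [thetaFam_eq L α β γ hα hβ hγ D (addMap L α β (hα.trans hβ.symm)) α β
    (addMap L α β (hα.trans hβ.symm)) rfl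
    (addMap_zero_right L sT α γ hα h0 _) (addMap_zero_right L sT β γ hβ h0 _)
    (addMap_zero_right L sT _ γ ((addMap_comp L α β _).trans hα) h0 _), comm_cancel₃, h0]
  exact pullc_of_factors_through_point sT _ D hD

end Zero

/-! ## CUBEX -/

section CubeX

/-- The diagonal `X ⟶ X × (X × X)`. -/
def diag3 {X : Scheme.{u}} (sX : X ⟶ Spec (CommRingCat.of K)) : X ⟶ pullback sX (prodS sX sX) :=
  pullback.lift (𝟙 X) (pullback.lift (𝟙 X) (𝟙 X) rfl)
    (by rw [prodS_eq_fst sX sX, pullback.lift_fst_assoc])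

omit [IsAlgClosed K] in
@[reassoc]
theorem diag3_fst {X : Scheme.{u}} (sX : X ⟶ Spec (CommRingCat.of K)) :
    diag3 sX ≫ pullback.fst sX (prodS sX sX) = 𝟙 X := by
  simp only [diag3, pullback.lift_fst]

omit [IsAlgClosed K] in
@[reassoc]
theorem diag3_snd_fst {X : Scheme.{u}} (sX : X ⟶ Spec (CommRingCat.of K)) :
    diag3 sX ≫ pullback.snd sX (prodS sX sX) ≫ pullback.fst sX sX = 𝟙 X := by
  simp only [diag3, pullback.lift_snd_assoc, pullback.lift_fst]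

omit [IsAlgClosed K] in
@[reassoc]
theorem diag3_snd_snd {X : Scheme.{u}} (sX : X ⟶ Spec (CommRingCat.of K)) :
    diag3 sX ≫ pullback.snd sX (prodS sX sX) ≫ pullback.snd sX sX = 𝟙 X := by
  simp only [diag3, pullback.lift_snd_assoc, pullback.lift_snd]

/-- P10 EXPORT (CUBEX): EXACT frozen signature of `Fermat.Agent.S26.cubeX`. -/
theorem cubeX_of_exports (L : RelativeGroupLaw K f) (hc : L.IsCommutative)
    (hA : AbelianSchemePropertyBundle K f)
    {X : Scheme.{u}} [IsIntegral X] (sX : X ⟶ Spec (CommRingCat.of K)) (hX : IsCurveProd X sX)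
    (x₀ : Pts sX) (α β γ : X ⟶ A)
    (hα : α ≫ f = sX) (hβ : β ≫ f = sX) (hγ : γ ≫ f = sX)
    (hα₀ : x₀.1 ≫ α = (L.one (𝟙 _)).1) (hβ₀ : x₀.1 ≫ β = (L.one (𝟙 _)).1)
    (hγ₀ : x₀.1 ≫ γ = (L.one (𝟙 _)).1)
    (D : Fam A) (hD : D.IsCartier) :
    Fam.LinEquiv (thetaFam L α β γ hα hβ hγ D) 1 := by
  have hXv : IsVar sX := isVar_of_isCurveProd hX
  have hW : IsIntegral (pullback sX (prodS sX sX)) :=
    (isVar_prod hXv (isVar_prod hXv hXv)).integral
  -- the three morphisms on `W = X × (X × X)`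
  have h₁ : (pullback.fst sX (prodS sX sX) ≫ α) ≫ f = prodS sX (prodS sX sX) := by
    rw [Category.assoc, hα]; rfl
  have h₂ : ((pullback.snd sX (prodS sX sX) ≫ pullback.fst sX sX) ≫ β) ≫ f =
      prodS sX (prodS sX sX) := by
    rw [Category.assoc, hβ, Category.assoc, ← w3_cond₂]; rfl
  have h₃ : ((pullback.snd sX (prodS sX sX) ≫ pullback.snd sX sX) ≫ γ) ≫ f =
      prodS sX (prodS sX sX) := by
    rw [Category.assoc, hγ, Category.assoc, ← w3_cond₃]; rfl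
  have hM := isCartier_thetaFam L _ _ _ h₁ h₂ h₃ D hD
  have hM1 : Fam.LinEquiv (thetaFam L _ _ _ h₁ h₂ h₃ D) 1 := by
    refine cube3G_level3 hX x₀ sX sX hX hX x₀ x₀ hW _ hM ?_ ?_ ?_
    · intro P _ j hj
      have e : j ≫ pullback.fst sX (prodS sX sX) ≫ α =
          (j ≫ prodS sX (prodS sX sX)) ≫ (L.one (𝟙 _)).1 := by
        rw [← Category.assoc, hj, Category.assoc, hα₀]
      exact le_trans (pullc_thetaFam_le L j _ _ _ h₁ h₂ h₃
        (by rw [Category.assoc, h₁]) (by rw [Category.assoc, h₂]) (by rw [Category.assoc, h₃])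
        D hD) (thetaFam_zero₁ L _ _ _ _ _ _ e D hD)
    · intro P _ j hj
      have e : j ≫ (pullback.snd sX (prodS sX sX) ≫ pullback.fst sX sX) ≫ β =
          (j ≫ prodS sX (prodS sX sX)) ≫ (L.one (𝟙 _)).1 := by
        rw [← Category.assoc, hj, Category.assoc, hβ₀]
      exact le_trans (pullc_thetaFam_le L j _ _ _ h₁ h₂ h₃
        (by rw [Category.assoc, h₁]) (by rw [Category.assoc, h₂]) (by rw [Category.assoc, h₃])
        D hD) (thetaFam_zero₂ L _ _ _ _ _ _ e D hD)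
    · intro P _ j hj
      have e : j ≫ (pullback.snd sX (prodS sX sX) ≫ pullback.snd sX sX) ≫ γ =
          (j ≫ prodS sX (prodS sX sX)) ≫ (L.one (𝟙 _)).1 := by
        rw [← Category.assoc, hj, Category.assoc, hγ₀]
      exact le_trans (pullc_thetaFam_le L j _ _ _ h₁ h₂ h₃
        (by rw [Category.assoc, h₁]) (by rw [Category.assoc, h₂]) (by rw [Category.assoc, h₃])
        D hD) (thetaFam_zero₃ L _ _ _ _ _ _ e D hD)
  -- pull back along the diagonal
  have eα : diag3 sX ≫ pullback.fst sX (prodS sX sX) ≫ α = α := by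
    rw [diag3_fst_assoc]
  have eβ : diag3 sX ≫ (pullback.snd sX (prodS sX sX) ≫ pullback.fst sX sX) ≫ β = β := by
    rw [Category.assoc, diag3_snd_fst_assoc]
  have eγ : diag3 sX ≫ (pullback.snd sX (prodS sX sX) ≫ pullback.snd sX sX) ≫ γ = γ := by
    rw [Category.assoc, diag3_snd_snd_assoc]
  have hd := pullc_thetaFam_le L (diag3 sX) _ _ _ h₁ h₂ h₃ (sP := sX)
    (by rw [eα]; exact hα) (by rw [eβ]; exact hβ) (by rw [eγ]; exact hγ) D hD
  rw [thetaFam_congr L _ _ _ hα hβ hγ eα eβ eγ D] at hd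
  exact le_trans (le_symm hd) (pullc_le_one (diag3 sX) _ hM hM1)

end CubeX

end

end Fermat.Agent.S26.FORMAL.H2685
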