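import Fermat.Agent.S26.FORMAL.CubeX2685

/-!
# S26 / P10 FORMAL (helper2685): QUAD with the EXACT frozen signature

`quad_of_exports` = frozen `quad` (TChain.lean): for a symmetric Cartier class `D` on `A` and a
pointed morphism `σ` from a product of curves, `(σ ≫ [k])^* D ~ (σ^* D)^(k²)`.

From `cubeX_of_exports` (hence from the frozen exports `seesaw`, `cube3_curves`,
`isIntegral_prod` and the P5 calculus), the P6 export `exists_ringHom_pullFun` (for the
automorphism `[-1]`) and the Yoneda calculus of the group law (`GroupCalc2685.lean`).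
-/

set_option autoImplicit false

universe u

open CategoryTheory CategoryTheory.Limits AlgebraicGeometry NeronModelInfra GoodReductionJacobian

namespace Fermat.Agent.S26.FORMAL.H2685

open Fermat.Agent.S26

noncomputable section

variable {K : Type u} [Field K] [IsAlgClosed K] {A : Scheme.{u}}
  {f : A ⟶ Spec (CommRingCat.of K)} [IsIntegral A]

omit [IsAlgClosed K] in
/-- A symmetric class is invariant under `[-1]^*` at the class level. -/
theorem pullc_negMap_le (L : RelativeGroupLaw K f) (D : Fam A)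
    (hsym : Fam.LinEquiv (Fam.pullback (negMap L) D) D) :
    Fam.LinEquiv (Fam.pullc (negMap L) D) D := by
  have : IsIso (negMap L) := isIso_negMap L
  have hgen : (negMap L).base (genericPoint A) = genericPoint A :=
    genericPoint_eq_of_isOpenImmersion (negMap L)
  obtain ⟨ι, hι⟩ := exists_ringHom_pullFun (negMap L) hgen
  exact le_trans (le_symm (pullback_le_pullc_of_ringHom (negMap L) ι hι D)) hsym

theorem quad_exp {G : Type*} [CommGroup G] (s : G) (m : ℕ) :
    s ^ ((m + 1) ^ 2) * (s ^ (m ^ 2))⁻¹ * 1⁻¹ * s ^ ((m + 1) ^ 2) * s * s =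
      s ^ ((m + 2) ^ 2) := by
  have h : s ^ ((m + 2) ^ 2) * s ^ (m ^ 2) = s ^ ((m + 1) ^ 2) * s ^ ((m + 1) ^ 2) * s * s := by
    rw [← pow_add, ← pow_add, ← pow_succ, ← pow_succ]
    congr 1; ring
  have h2 : s ^ ((m + 1) ^ 2) * (s ^ (m ^ 2))⁻¹ * 1⁻¹ * s ^ ((m + 1) ^ 2) * s * s =
      (s ^ ((m + 1) ^ 2) * s ^ ((m + 1) ^ 2) * s * s) * (s ^ (m ^ 2))⁻¹ := by
    rw [inv_one, mul_one]; ac_rfl
  rw [h2, ← h, mul_inv_cancel_right]

theorem comm_solve {G : Type*} [CommGroup G] (u v w z s n : G) :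
    v * (u * v⁻¹ * w⁻¹ * z⁻¹ * u * s * n) = u * w⁻¹ * z⁻¹ * u * s * n := by
  have : v * (u * v⁻¹ * w⁻¹ * z⁻¹ * u * s * n) = (v * v⁻¹) * (u * w⁻¹ * z⁻¹ * u * s * n) := by
    ac_rfl
  rw [this, mul_inv_cancel, one_mul]

/-- P10 EXPORT (QUAD): EXACT frozen signature of `Fermat.Agent.S26.quad`. -/
theorem quad_of_exports (L : RelativeGroupLaw K f) (hc : L.IsCommutative)
    (hA : AbelianSchemePropertyBundle K f)
    {X : Scheme.{u}} [IsIntegral X] (sX : X ⟶ Spec (CommRingCat.of K)) (hX : IsCurveProd X sX)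
    (x₀ : Pts sX) (σ : X ⟶ A) (hσ : σ ≫ f = sX) (hσ₀ : x₀.1 ≫ σ = (L.one (𝟙 _)).1)
    (D : Fam A) (hD : D.IsCartier) (hsym : Fam.LinEquiv (Fam.pullback (negMap L) D) D)
    (k : ℕ) :
    Fam.LinEquiv (Fam.pullc (σ ≫ L.schemeNsmul k) D) ((Fam.pullc σ D) ^ (k ^ 2)) := by
  -- `(-σ)^* D ~ σ^* D`
  have hneg : Fam.LinEquiv (Fam.pullc (σ ≫ negMap L) D) (Fam.pullc σ D) :=
    le_trans (pullc_comp σ (negMap L) D hD)
      (pullc_linEquiv σ _ D (isCartier_pullc _ D hD) hD (pullc_negMap_le L D hsym))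
  -- the zero map
  have hzero : Fam.LinEquiv (Fam.pullc ((σ ≫ f) ≫ (L.one (𝟙 _)).1) D) 1 := by
    rw [hσ]; exact pullc_of_factors_through_point sX _ D hD
  have key : ∀ m : ℕ,
      Fam.LinEquiv (Fam.pullc (σ ≫ L.schemeNsmul m) D) ((Fam.pullc σ D) ^ (m ^ 2)) ∧
      Fam.LinEquiv (Fam.pullc (σ ≫ L.schemeNsmul (m + 1)) D)
        ((Fam.pullc σ D) ^ ((m + 1) ^ 2)) := by
    intro m
    induction m with
    | zero =>
      refine ⟨?_, ?_⟩
      · rw [comp_schemeNsmul_zero]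
        simpa only [ne_eq, OfNat.ofNat_ne_zero, not_false_eq_true, zero_pow, pow_zero] using hzero
      · rw [comp_schemeNsmul_one]
        simp only [zero_add, one_pow, pow_one]
        exact le_refl _
    | succ m ih =>
      refine ⟨ih.2, ?_⟩
      -- the cube relation for `([m+1]σ, σ, -σ)`
      have hα : (σ ≫ L.schemeNsmul (m + 1)) ≫ f = sX :=
        (comp_schemeNsmul_over L σ (m + 1)).trans hσ
      have hγ : (σ ≫ negMap L) ≫ f = sX := (comp_negMap_over L σ).trans hσ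
      have hα₀ : x₀.1 ≫ σ ≫ L.schemeNsmul (m + 1) = (L.one (𝟙 _)).1 := by
        rw [← Category.assoc, hσ₀, origin_comp_schemeNsmul]
      have hγ₀ : x₀.1 ≫ σ ≫ negMap L = (L.one (𝟙 _)).1 := by
        rw [← Category.assoc, hσ₀, origin_comp_negMap]
      have hΘ := cubeX_of_exports L hc hA sX hX x₀ (σ ≫ L.schemeNsmul (m + 1)) σ
        (σ ≫ negMap L) hα hσ hγ hα₀ hσ₀ hγ₀ D hD
      rw [thetaFam_eq L _ _ _ hα hσ hγ D (σ ≫ L.schemeNsmul (m + 1 + 1)) (σ ≫ L.schemeNsmul m)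
        ((σ ≫ f) ≫ (L.one (𝟙 _)).1) (σ ≫ L.schemeNsmul (m + 1))
        (addMap_nsmul_self L σ (m + 1) _) (addMap_nsmul_succ_neg L σ m _)
        (addMap_self_neg L σ _)
        ((addMap_congr L (addMap_nsmul_self L σ (m + 1) _) rfl _
          ((comp_schemeNsmul_over L σ (m + 1 + 1)).trans (comp_negMap_over L σ).symm)).trans
          (addMap_nsmul_succ_neg L σ (m + 1) _))] at hΘ
      -- solve for `[m+2]`
      have h1 := le_mul (le_refl (Fam.pullc (σ ≫ L.schemeNsmul (m + 1 + 1)) D)) hΘ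
      rw [comm_solve, mul_one] at h1
      have h2 := le_mul (le_mul (le_mul (le_mul (le_mul ih.2 (le_inv ih.1)) (le_inv hzero)) ih.2)
        (le_refl (Fam.pullc σ D))) hneg
      rw [quad_exp] at h2
      exact le_trans (le_symm h1) h2
  exact (key k).1

end

end Fermat.Agent.S26.FORMAL.H2685
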