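import Fermat.Agent.S26.TChainA
import Fermat.Agent.S26.FORMAL.PullcCalc2685

/-!
# S26 / P10 FORMAL (helper2685): REDUCE with the EXACT frozen signature

`cube3_curveProd_of_exports` = frozen `cube3_curveProd` (TChain.lean), proved from the frozen
exports `seesaw` (P14), `cube3_curves` (P15), `isIntegral_prod` (P6) and the P5 calculus of
`Fam.pullc`.

Method: "generalised faces".  A class `M` on `W` is trivial on the face of `p : W ⟶ X` at the
point `x₀` (`FaceTriv`) if `j^* M` is trivial for EVERY morphism `j : P ⟶ W` from an integral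
scheme such that `j ≫ p` is the constant map `x₀`.  This notion is stable under every change of
the ambient product, so permutations/reassociations are one-liners.
-/

set_option autoImplicit false

universe u

open CategoryTheory CategoryTheory.Limits AlgebraicGeometry NeronModelInfra GoodReductionJacobian

namespace Fermat.Agent.S26.FORMAL.H2685

open Fermat.Agent.S26

noncomputable section

variable {K : Type u} [Field K]

/-! ## Smooth proper integral varieties -/

/-- A smooth, proper, integral `K`-scheme. -/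
structure IsVar {X : Scheme.{u}} (sX : X ⟶ Spec (CommRingCat.of K)) : Prop where
  integral : IsIntegral X
  smooth : Smooth sX
  proper : IsProper sX

theorem isVar_of_isIso {X : Scheme.{u}} (sX : X ⟶ Spec (CommRingCat.of K)) (h : IsIso sX) :
    IsVar sX where
  integral := by
    have : IsIntegral (Spec (CommRingCat.of K)) := inferInstance
    exact IsIntegral.of_isIso (inv sX)
  smooth := inferInstance
  proper := inferInstance

theorem isVar_of_curve {C : Scheme.{u}} {sC : C ⟶ Spec (CommRingCat.of K)}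
    (hC : IsSmoothProperCurve sC) : IsVar sC where
  integral := hC.integral
  smooth := by
    have := hC.smooth
    exact SmoothOfRelativeDimension.smooth 1 sC
  proper := hC.proper

theorem isVar_of_iso {X X' : Scheme.{u}} {sX : X ⟶ Spec (CommRingCat.of K)}
    {sX' : X' ⟶ Spec (CommRingCat.of K)} (e : X ≅ X') (he : e.hom ≫ sX' = sX)
    (h : IsVar sX') : IsVar sX where
  integral := by
    have := h.integral
    exact IsIntegral.of_isIso e.inv
  smooth := by
    have := h.smooth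
    rw [← he]; infer_instance
  proper := by
    have := h.proper
    rw [← he]; infer_instance

theorem isVar_prod [IsAlgClosed K] {X Y : Scheme.{u}} {sX : X ⟶ Spec (CommRingCat.of K)}
    {sY : Y ⟶ Spec (CommRingCat.of K)} (hX : IsVar sX) (hY : IsVar sY) :
    IsVar (prodS sX sY) where
  integral := by
    have := hX.integral
    have := hY.integral
    have := hX.proper
    have := hY.proper
    exact isIntegral_prod sX sY
  smooth := by
    have := hX.smooth
    have := hY.smooth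
    unfold prodS; infer_instance
  proper := by
    have := hX.proper
    have := hY.proper
    unfold prodS; infer_instance

theorem isVar_of_isCurveProd [IsAlgClosed K] {X : Scheme.{u}} {sX : X ⟶ Spec (CommRingCat.of K)}
    (h : IsCurveProd X sX) : IsVar sX := by
  induction h with
  | pt X sX h => exact isVar_of_isIso sX h
  | prod C sC X' sX' hC _ X sX e he ih => exact isVar_of_iso e he (isVar_prod (isVar_of_curve hC) ih)

/-! ## Generalised faces -/

/-- `M` is trivial on the (generalised) face `p = x₀` of `W`: its pullback along every morphism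
`j : P ⟶ W` with `j ≫ p` constant equal to `x₀` is principal. -/
def FaceTriv {W X : Scheme.{u}} [IsIntegral W] (sW : W ⟶ Spec (CommRingCat.of K))
    {sX : X ⟶ Spec (CommRingCat.of K)} (p : W ⟶ X) (x₀ : Pts sX) (M : Fam W) : Prop :=
  ∀ (P : Scheme.{u}) [IsIntegral P] (j : P ⟶ W), j ≫ p = (j ≫ sW) ≫ x₀.1 →
    Fam.LinEquiv (Fam.pullc j M) 1

/-- Faces pull back to faces. -/
theorem faceTriv_pullc {W W' X X' : Scheme.{u}} [IsIntegral W] [IsIntegral W']
    {sW : W ⟶ Spec (CommRingCat.of K)} {sW' : W' ⟶ Spec (CommRingCat.of K)}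
    {sX : X ⟶ Spec (CommRingCat.of K)} {sX' : X' ⟶ Spec (CommRingCat.of K)}
    (θ : W' ⟶ W) (hθ : θ ≫ sW = sW') (p : W ⟶ X) (p' : W' ⟶ X') (h : X' ⟶ X)
    (hp : θ ≫ p = p' ≫ h) (x₀ : Pts sX) (x₀' : Pts sX') (hx : x₀'.1 ≫ h = x₀.1)
    (M : Fam W) (hM : M.IsCartier) (hF : FaceTriv sW p x₀ M) :
    FaceTriv sW' p' x₀' (Fam.pullc θ M) := by
  intro P _ j hj
  have h1 : (j ≫ θ) ≫ p = ((j ≫ θ) ≫ sW) ≫ x₀.1 := by
    calc (j ≫ θ) ≫ p = (j ≫ p') ≫ h := by rw [Category.assoc, hp, Category.assoc]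
      _ = (j ≫ sW') ≫ x₀'.1 ≫ h := by rw [hj, Category.assoc]
      _ = ((j ≫ θ) ≫ sW) ≫ x₀.1 := by rw [hx, Category.assoc j θ sW, hθ]
  exact pullc_pullc_le_one j θ M hM (hF P (j ≫ θ) h1)

/-- The cube property of `X × (Y × Z)` in terms of generalised faces. -/
def Cube3G {X Y Z : Scheme.{u}} (sX : X ⟶ Spec (CommRingCat.of K))
    (sY : Y ⟶ Spec (CommRingCat.of K)) (sZ : Z ⟶ Spec (CommRingCat.of K))
    (x₀ : Pts sX) (y₀ : Pts sY) (z₀ : Pts sZ) : Prop :=
  ∀ (_ : IsIntegral (pullback sX (prodS sY sZ))) (M : Fam (pullback sX (prodS sY sZ))),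
    M.IsCartier →
    FaceTriv (prodS sX (prodS sY sZ)) (pullback.fst sX (prodS sY sZ)) x₀ M →
    FaceTriv (prodS sX (prodS sY sZ)) (pullback.snd sX (prodS sY sZ) ≫ pullback.fst sY sZ) y₀ M →
    FaceTriv (prodS sX (prodS sY sZ)) (pullback.snd sX (prodS sY sZ) ≫ pullback.snd sY sZ) z₀ M →
    Fam.LinEquiv M 1

section Ext

variable {X Y Z T : Scheme.{u}} {sX : X ⟶ Spec (CommRingCat.of K)}
  {sY : Y ⟶ Spec (CommRingCat.of K)} {sZ : Z ⟶ Spec (CommRingCat.of K)}

theorem w3_ext (a b : T ⟶ pullback sX (prodS sY sZ))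
    (h1 : a ≫ pullback.fst sX (prodS sY sZ) = b ≫ pullback.fst sX (prodS sY sZ))
    (h2 : a ≫ pullback.snd sX (prodS sY sZ) ≫ pullback.fst sY sZ =
      b ≫ pullback.snd sX (prodS sY sZ) ≫ pullback.fst sY sZ)
    (h3 : a ≫ pullback.snd sX (prodS sY sZ) ≫ pullback.snd sY sZ =
      b ≫ pullback.snd sX (prodS sY sZ) ≫ pullback.snd sY sZ) : a = b := by
  apply pullback.hom_ext h1
  apply pullback.hom_ext
  · simpa only [Category.assoc] using h2
  · simpa only [Category.assoc] using h3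

/-- `fst ≫ sX = snd ≫ fst ≫ sY` on `X × (Y × Z)`. -/
@[reassoc]
theorem w3_cond₂ : pullback.fst sX (prodS sY sZ) ≫ sX =
    pullback.snd sX (prodS sY sZ) ≫ pullback.fst sY sZ ≫ sY :=
  pullback.condition

/-- `fst ≫ sX = snd ≫ snd ≫ sZ` on `X × (Y × Z)`. -/
@[reassoc]
theorem w3_cond₃ : pullback.fst sX (prodS sY sZ) ≫ sX =
    pullback.snd sX (prodS sY sZ) ≫ pullback.snd sY sZ ≫ sZ := by
  rw [w3_cond₂, pullback.condition]

end Ext

/-! ## Slices and planes: components -/

section Slices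

variable {X Y Z : Scheme.{u}} {sX : X ⟶ Spec (CommRingCat.of K)}
  {sY : Y ⟶ Spec (CommRingCat.of K)} {sZ : Z ⟶ Spec (CommRingCat.of K)}

theorem prodS_eq_fst (sX : X ⟶ Spec (CommRingCat.of K)) (sY : Y ⟶ Spec (CommRingCat.of K)) :
    prodS sX sY = pullback.fst sX sY ≫ sX := rfl

theorem prodS_eq_snd (sX : X ⟶ Spec (CommRingCat.of K)) (sY : Y ⟶ Spec (CommRingCat.of K)) :
    prodS sX sY = pullback.snd sX sY ≫ sY := pullback.condition

@[reassoc]
theorem sliceR_fst (x₀ : Pts sX) : sliceR x₀ sY ≫ pullback.fst sX sY = sY ≫ x₀.1 := by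
  simp only [sliceR, pullback.lift_fst]

@[reassoc]
theorem sliceR_snd (x₀ : Pts sX) : sliceR x₀ sY ≫ pullback.snd sX sY = 𝟙 Y := by
  simp only [sliceR, pullback.lift_snd]

@[reassoc]
theorem sliceL_fst (y₀ : Pts sY) : sliceL sX y₀ ≫ pullback.fst sX sY = 𝟙 X := by
  simp only [sliceL, pullback.lift_fst]

@[reassoc]
theorem sliceL_snd (y₀ : Pts sY) : sliceL sX y₀ ≫ pullback.snd sX sY = sX ≫ y₀.1 := by
  simp only [sliceL, pullback.lift_snd]

@[reassoc]
theorem planeXZ_fst (y₀ : Pts sY) :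
    planeXZ sX y₀ sZ ≫ pullback.fst sX (prodS sY sZ) = pullback.fst sX sZ := by
  simp only [planeXZ, pullback.map, pullback.lift_fst, Category.comp_id]

@[reassoc]
theorem planeXZ_snd (y₀ : Pts sY) :
    planeXZ sX y₀ sZ ≫ pullback.snd sX (prodS sY sZ) = pullback.snd sX sZ ≫ sliceR y₀ sZ := by
  simp only [planeXZ, pullback.map, pullback.lift_snd]

@[reassoc]
theorem planeXY_fst (z₀ : Pts sZ) :
    planeXY sX sY z₀ ≫ pullback.fst sX (prodS sY sZ) = pullback.fst sX sY := by
  simp only [planeXY, pullback.map, pullback.lift_fst, Category.comp_id]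

@[reassoc]
theorem planeXY_snd (z₀ : Pts sZ) :
    planeXY sX sY z₀ ≫ pullback.snd sX (prodS sY sZ) = pullback.snd sX sY ≫ sliceL sY z₀ := by
  simp only [planeXY, pullback.map, pullback.lift_snd]

end Slices

/-! ## The frozen `CubeProp3` versus generalised faces -/

section Bridge

variable {X Y Z : Scheme.{u}} (sX : X ⟶ Spec (CommRingCat.of K))
  (sY : Y ⟶ Spec (CommRingCat.of K)) (sZ : Z ⟶ Spec (CommRingCat.of K))
  (x₀ : Pts sX) (y₀ : Pts sY) (z₀ : Pts sZ)
  [IsIntegral X] [IsIntegral Y] [IsIntegral Z]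
  [IsIntegral (pullback sY sZ)] [IsIntegral (pullback sX sZ)] [IsIntegral (pullback sX sY)]
  [IsIntegral (pullback sX (prodS sY sZ))]

theorem cube3G_of_cubeProp3 (H : CubeProp3 sX sY sZ x₀ y₀ z₀) : Cube3G sX sY sZ x₀ y₀ z₀ := by
  intro _ M hM F₁ F₂ F₃
  refine H M hM (F₁ _ (sliceR x₀ (prodS sY sZ)) ?_) (F₂ _ (planeXZ sX y₀ sZ) ?_)
    (F₃ _ (planeXY sX sY z₀) ?_)
  · rw [sliceR_prodS, sliceR_fst]
  · rw [prodS_eq_fst sX (prodS sY sZ)]
    simp only [Category.assoc, planeXZ_fst_assoc, planeXZ_snd_assoc, sliceR_fst]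
    rw [pullback.condition_assoc]
  · rw [prodS_eq_fst sX (prodS sY sZ)]
    simp only [Category.assoc, planeXY_fst_assoc, planeXY_snd_assoc, sliceL_snd]
    rw [pullback.condition_assoc]

theorem cubeProp3_of_cube3G (G : Cube3G sX sY sZ x₀ y₀ z₀) : CubeProp3 sX sY sZ x₀ y₀ z₀ := by
  intro M hM h₁ h₂ h₃
  refine G inferInstance M hM ?_ ?_ ?_
  · intro P _ j hj
    have e : j = (j ≫ pullback.snd sX (prodS sY sZ)) ≫ sliceR x₀ (prodS sY sZ) := by
      apply pullback.hom_ext
      · rw [hj, prodS_eq_snd sX (prodS sY sZ)]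
        simp only [Category.assoc, sliceR_fst]
      · simp only [Category.assoc, sliceR_snd, Category.comp_id]
    rw [e]
    exact pullc_comp_le_one _ _ M hM h₁
  · intro P _ j hj
    have hc : (j ≫ pullback.fst sX (prodS sY sZ)) ≫ sX =
        (j ≫ pullback.snd sX (prodS sY sZ) ≫ pullback.snd sY sZ) ≫ sZ := by
      simp only [Category.assoc, w3_cond₃]
    have e : j = pullback.lift (j ≫ pullback.fst sX (prodS sY sZ))
        (j ≫ pullback.snd sX (prodS sY sZ) ≫ pullback.snd sY sZ) hc ≫ planeXZ sX y₀ sZ := by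
      apply w3_ext
      · simp only [Category.assoc, planeXZ_fst, pullback.lift_fst]
      · rw [hj, prodS_eq_fst sX (prodS sY sZ)]
        simp only [Category.assoc, planeXZ_snd_assoc, sliceR_fst, pullback.lift_snd_assoc,
          w3_cond₃_assoc]
      · simp only [Category.assoc, planeXZ_snd_assoc, sliceR_snd, Category.comp_id,
          pullback.lift_snd]
    rw [e]
    exact pullc_comp_le_one _ _ M hM h₂
  · intro P _ j hj
    have hc : (j ≫ pullback.fst sX (prodS sY sZ)) ≫ sX =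
        (j ≫ pullback.snd sX (prodS sY sZ) ≫ pullback.fst sY sZ) ≫ sY := by
      simp only [Category.assoc, w3_cond₂]
    have e : j = pullback.lift (j ≫ pullback.fst sX (prodS sY sZ))
        (j ≫ pullback.snd sX (prodS sY sZ) ≫ pullback.fst sY sZ) hc ≫ planeXY sX sY z₀ := by
      apply w3_ext
      · simp only [Category.assoc, planeXY_fst, pullback.lift_fst]
      · simp only [Category.assoc, planeXY_snd_assoc, sliceL_fst, Category.comp_id,
          pullback.lift_snd]
      · rw [hj, prodS_eq_fst sX (prodS sY sZ)]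
        simp only [Category.assoc, planeXY_snd_assoc, sliceL_snd, pullback.lift_snd_assoc,
          w3_cond₂_assoc]
    rw [e]
    exact pullc_comp_le_one _ _ M hM h₃

end Bridge

/-! ## Base case, permutations, transport along an isomorphism -/

section Transport

variable {X Y Z : Scheme.{u}} (sX : X ⟶ Spec (CommRingCat.of K))
  (sY : Y ⟶ Spec (CommRingCat.of K)) (sZ : Z ⟶ Spec (CommRingCat.of K))

/-- Special case of `faceTriv_pullc` with the same factor. -/
theorem faceTriv_pullc_id {W W' : Scheme.{u}} [IsIntegral W] [IsIntegral W']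
    {sW : W ⟶ Spec (CommRingCat.of K)} {sW' : W' ⟶ Spec (CommRingCat.of K)}
    (θ : W' ⟶ W) (hθ : θ ≫ sW = sW') (p : W ⟶ X) (p' : W' ⟶ X)
    (hp : θ ≫ p = p') (x₀ : Pts sX)
    (M : Fam W) (hM : M.IsCartier) (hF : FaceTriv sW p x₀ M) :
    FaceTriv sW' p' x₀ (Fam.pullc θ M) :=
  faceTriv_pullc θ hθ p p' (𝟙 X) (by rw [hp, Category.comp_id]) x₀ x₀ (Category.comp_id _) M hM hF

/-- If `X` is a point, the cube property is trivial. -/
theorem cube3G_of_isIso (x₀ : Pts sX) (y₀ : Pts sY) (z₀ : Pts sZ) (h : IsIso sX) :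
    Cube3G sX sY sZ x₀ y₀ z₀ := by
  intro _ M hM F₁ _ _
  have h1 : sX ≫ x₀.1 = 𝟙 X := by
    rw [← cancel_mono sX, Category.assoc, x₀.2, Category.comp_id, Category.id_comp]
  have h2 := F₁ _ (𝟙 _) (by
    rw [Category.id_comp, Category.id_comp, prodS_eq_fst sX (prodS sY sZ), Category.assoc, h1,
      Category.comp_id])
  exact le_trans (le_symm (pullc_id M hM)) h2

/-- The swap `X × (Y × Z) ⟶ Y × (X × Z)`. -/
def swap12 : pullback sX (prodS sY sZ) ⟶ pullback sY (prodS sX sZ) :=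
  pullback.lift (pullback.snd sX (prodS sY sZ) ≫ pullback.fst sY sZ)
    (pullback.lift (pullback.fst sX (prodS sY sZ))
      (pullback.snd sX (prodS sY sZ) ≫ pullback.snd sY sZ) (by rw [w3_cond₃, Category.assoc]))
    (by rw [prodS_eq_fst sX sZ, pullback.lift_fst_assoc, Category.assoc, ← w3_cond₂])

@[reassoc]
theorem swap12_fst : swap12 sX sY sZ ≫ pullback.fst sY (prodS sX sZ) =
    pullback.snd sX (prodS sY sZ) ≫ pullback.fst sY sZ := by
  simp only [swap12, pullback.lift_fst]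

@[reassoc]
theorem swap12_snd_fst : swap12 sX sY sZ ≫ pullback.snd sY (prodS sX sZ) ≫ pullback.fst sX sZ =
    pullback.fst sX (prodS sY sZ) := by
  simp only [swap12, pullback.lift_snd_assoc, pullback.lift_fst]

@[reassoc]
theorem swap12_snd_snd : swap12 sX sY sZ ≫ pullback.snd sY (prodS sX sZ) ≫ pullback.snd sX sZ =
    pullback.snd sX (prodS sY sZ) ≫ pullback.snd sY sZ := by
  simp only [swap12, pullback.lift_snd_assoc, pullback.lift_snd]

theorem swap12_swap12 : swap12 sX sY sZ ≫ swap12 sY sX sZ = 𝟙 _ := by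
  apply w3_ext
  · simp only [Category.assoc, swap12_fst, swap12_snd_fst, Category.id_comp]
  · simp only [Category.assoc, swap12_snd_fst, swap12_fst, Category.id_comp]
  · simp only [Category.assoc, swap12_snd_snd, Category.id_comp]

theorem swap12_prodS : swap12 sX sY sZ ≫ prodS sY (prodS sX sZ) = prodS sX (prodS sY sZ) := by
  rw [prodS_eq_fst sY (prodS sX sZ), swap12_fst_assoc, prodS_eq_fst sX (prodS sY sZ), w3_cond₂]

/-- The cube property is symmetric in the first two factors. -/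
theorem cube3G_swap12 (x₀ : Pts sX) (y₀ : Pts sY) (z₀ : Pts sZ)
    (hW : IsIntegral (pullback sX (prodS sY sZ))) (H : Cube3G sX sY sZ x₀ y₀ z₀) :
    Cube3G sY sX sZ y₀ x₀ z₀ := by
  intro _ M hM F₁ F₂ F₃
  have hN : Fam.LinEquiv (Fam.pullc (swap12 sX sY sZ) M) 1 :=
    H inferInstance _ (isCartier_pullc _ M hM)
      (faceTriv_pullc_id sX _ (swap12_prodS sX sY sZ) _ _ (swap12_snd_fst sX sY sZ) x₀ M hM F₂)
      (faceTriv_pullc_id sY _ (swap12_prodS sX sY sZ) _ _ (swap12_fst sX sY sZ) y₀ M hM F₁)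
      (faceTriv_pullc_id sZ _ (swap12_prodS sX sY sZ) _ _ (swap12_snd_snd sX sY sZ) z₀ M hM F₃)
  exact le_one_of_section _ (swap12 sY sX sZ) (swap12_swap12 sY sX sZ) M hM hN

/-- The swap `X × (Y × Z) ⟶ X × (Z × Y)`. -/
def swap23 : pullback sX (prodS sY sZ) ⟶ pullback sX (prodS sZ sY) :=
  pullback.lift (pullback.fst sX (prodS sY sZ))
    (pullback.snd sX (prodS sY sZ) ≫
      pullback.lift (pullback.snd sY sZ) (pullback.fst sY sZ) pullback.condition.symm)
    (by rw [Category.assoc, prodS_eq_fst sZ sY, pullback.lift_fst_assoc, w3_cond₃])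

@[reassoc]
theorem swap23_fst : swap23 sX sY sZ ≫ pullback.fst sX (prodS sZ sY) =
    pullback.fst sX (prodS sY sZ) := by
  simp only [swap23, pullback.lift_fst]

@[reassoc]
theorem swap23_snd_fst : swap23 sX sY sZ ≫ pullback.snd sX (prodS sZ sY) ≫ pullback.fst sZ sY =
    pullback.snd sX (prodS sY sZ) ≫ pullback.snd sY sZ := by
  simp only [swap23, pullback.lift_snd_assoc, pullback.lift_fst, Category.assoc]

@[reassoc]
theorem swap23_snd_snd : swap23 sX sY sZ ≫ pullback.snd sX (prodS sZ sY) ≫ pullback.snd sZ sY =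
    pullback.snd sX (prodS sY sZ) ≫ pullback.fst sY sZ := by
  simp only [swap23, pullback.lift_snd_assoc, pullback.lift_snd, Category.assoc]

theorem swap23_swap23 : swap23 sX sY sZ ≫ swap23 sX sZ sY = 𝟙 _ := by
  apply w3_ext
  · simp only [Category.assoc, swap23_fst, Category.id_comp]
  · simp only [Category.assoc, swap23_snd_fst, swap23_snd_snd, Category.id_comp]
  · simp only [Category.assoc, swap23_snd_snd, swap23_snd_fst, Category.id_comp]

theorem swap23_prodS : swap23 sX sY sZ ≫ prodS sX (prodS sZ sY) = prodS sX (prodS sY sZ) := by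
  rw [prodS_eq_fst sX (prodS sZ sY), swap23_fst_assoc, prodS_eq_fst sX (prodS sY sZ)]

/-- The cube property is symmetric in the last two factors. -/
theorem cube3G_swap23 (x₀ : Pts sX) (y₀ : Pts sY) (z₀ : Pts sZ)
    (hW : IsIntegral (pullback sX (prodS sY sZ))) (H : Cube3G sX sY sZ x₀ y₀ z₀) :
    Cube3G sX sZ sY x₀ z₀ y₀ := by
  intro _ M hM F₁ F₂ F₃
  have hN : Fam.LinEquiv (Fam.pullc (swap23 sX sY sZ) M) 1 :=
    H inferInstance _ (isCartier_pullc _ M hM)
      (faceTriv_pullc_id sX _ (swap23_prodS sX sY sZ) _ _ (swap23_fst sX sY sZ) x₀ M hM F₁)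
      (faceTriv_pullc_id sY _ (swap23_prodS sX sY sZ) _ _ (swap23_snd_snd sX sY sZ) y₀ M hM F₃)
      (faceTriv_pullc_id sZ _ (swap23_prodS sX sY sZ) _ _ (swap23_snd_fst sX sY sZ) z₀ M hM F₂)
  exact le_one_of_section _ (swap23 sX sZ sY) (swap23_swap23 sX sZ sY) M hM hN

/-- Transport of the cube property along an isomorphism in the first factor. -/
theorem cube3G_of_iso {X₁ : Scheme.{u}} {sX : X ⟶ Spec (CommRingCat.of K)}
    {s₁ : X₁ ⟶ Spec (CommRingCat.of K)} (e : X ≅ X₁) (he : e.hom ≫ s₁ = sX)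
    (x₀ : Pts sX) (x₁ : Pts s₁) (hx : x₀.1 ≫ e.hom = x₁.1) (y₀ : Pts sY) (z₀ : Pts sZ)
    (hW : IsIntegral (pullback s₁ (prodS sY sZ))) (H : Cube3G s₁ sY sZ x₁ y₀ z₀) :
    Cube3G sX sY sZ x₀ y₀ z₀ := by
  intro _ M hM F₁ F₂ F₃
  have he' : e.inv ≫ sX = s₁ := by rw [← he, Iso.inv_hom_id_assoc]
  let θ : pullback s₁ (prodS sY sZ) ⟶ pullback sX (prodS sY sZ) :=
    pullback.lift (pullback.fst s₁ (prodS sY sZ) ≫ e.inv) (pullback.snd s₁ (prodS sY sZ))
      (by rw [Category.assoc, he', pullback.condition])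
  let θ' : pullback sX (prodS sY sZ) ⟶ pullback s₁ (prodS sY sZ) :=
    pullback.lift (pullback.fst sX (prodS sY sZ) ≫ e.hom) (pullback.snd sX (prodS sY sZ))
      (by rw [Category.assoc, he, pullback.condition])
  have hθ1 : θ ≫ pullback.fst sX (prodS sY sZ) = pullback.fst s₁ (prodS sY sZ) ≫ e.inv :=
    pullback.lift_fst _ _ _
  have hθ2 : θ ≫ pullback.snd sX (prodS sY sZ) = pullback.snd s₁ (prodS sY sZ) :=
    pullback.lift_snd _ _ _
  have hsec : θ' ≫ θ = 𝟙 _ := by
    apply pullback.hom_ext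
    · rw [Category.assoc, hθ1, pullback.lift_fst_assoc, Category.assoc, Iso.hom_inv_id,
        Category.comp_id, Category.id_comp]
    · rw [Category.assoc, hθ2, pullback.lift_snd, Category.id_comp]
  have hθs : θ ≫ prodS sX (prodS sY sZ) = prodS s₁ (prodS sY sZ) := by
    rw [prodS_eq_snd sX (prodS sY sZ), ← Category.assoc, hθ2, ← prodS_eq_snd]
  have hN : Fam.LinEquiv (Fam.pullc θ M) 1 :=
    H inferInstance _ (isCartier_pullc _ M hM)
      (faceTriv_pullc θ hθs _ _ e.inv hθ1 x₀ x₁ (by rw [← hx, Category.assoc, Iso.hom_inv_id,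
        Category.comp_id]) M hM F₁)
      (faceTriv_pullc_id sY θ hθs _ _ (by rw [← Category.assoc, hθ2]) y₀ M hM F₂)
      (faceTriv_pullc_id sZ θ hθs _ _ (by rw [← Category.assoc, hθ2]) z₀ M hM F₃)
  exact le_one_of_section θ θ' hsec M hM hN

end Transport

/-! ## The induction step: peeling off one curve with the seesaw principle -/

section Step

variable {C V Y Z : Scheme.{u}} (sC : C ⟶ Spec (CommRingCat.of K))
  (sV : V ⟶ Spec (CommRingCat.of K)) (sY : Y ⟶ Spec (CommRingCat.of K))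
  (sZ : Z ⟶ Spec (CommRingCat.of K))

/-- First component of a point of a product. -/
def ptFst (w : Pts (prodS sC sV)) : Pts sC :=
  ⟨w.1 ≫ pullback.fst sC sV, by rw [Category.assoc, ← prodS_eq_fst]; exact w.2⟩

/-- Second component of a point of a product. -/
def ptSnd (w : Pts (prodS sC sV)) : Pts sV :=
  ⟨w.1 ≫ pullback.snd sC sV, by rw [Category.assoc, ← prodS_eq_snd]; exact w.2⟩

theorem w4_ext {T : Scheme.{u}} (a b : T ⟶ pullback (prodS sC sV) (prodS sY sZ))
    (h1 : a ≫ pullback.fst (prodS sC sV) (prodS sY sZ) ≫ pullback.fst sC sV =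
      b ≫ pullback.fst (prodS sC sV) (prodS sY sZ) ≫ pullback.fst sC sV)
    (h2 : a ≫ pullback.fst (prodS sC sV) (prodS sY sZ) ≫ pullback.snd sC sV =
      b ≫ pullback.fst (prodS sC sV) (prodS sY sZ) ≫ pullback.snd sC sV)
    (h3 : a ≫ pullback.snd (prodS sC sV) (prodS sY sZ) =
      b ≫ pullback.snd (prodS sC sV) (prodS sY sZ)) : a = b := by
  apply pullback.hom_ext _ h3
  apply pullback.hom_ext
  · simpa only [Category.assoc] using h1
  · simpa only [Category.assoc] using h2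

/-- Reassociation `C × (V × (Y × Z)) ⟶ (C × V) × (Y × Z)`. -/
def assocθ : pullback sC (prodS sV (prodS sY sZ)) ⟶ pullback (prodS sC sV) (prodS sY sZ) :=
  pullback.lift
    (pullback.lift (pullback.fst sC (prodS sV (prodS sY sZ)))
      (pullback.snd sC (prodS sV (prodS sY sZ)) ≫ pullback.fst sV (prodS sY sZ))
      (by rw [Category.assoc]; exact pullback.condition))
    (pullback.snd sC (prodS sV (prodS sY sZ)) ≫ pullback.snd sV (prodS sY sZ))
    (by
      rw [prodS_eq_fst sC sV, pullback.lift_fst_assoc, Category.assoc, ← pullback.condition]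
      exact pullback.condition)

@[reassoc]
theorem assocθ_fst_fst : assocθ sC sV sY sZ ≫ pullback.fst (prodS sC sV) (prodS sY sZ) ≫
    pullback.fst sC sV = pullback.fst sC (prodS sV (prodS sY sZ)) := by
  simp only [assocθ, pullback.lift_fst_assoc, pullback.lift_fst]

@[reassoc]
theorem assocθ_fst_snd : assocθ sC sV sY sZ ≫ pullback.fst (prodS sC sV) (prodS sY sZ) ≫
    pullback.snd sC sV =
    pullback.snd sC (prodS sV (prodS sY sZ)) ≫ pullback.fst sV (prodS sY sZ) := by
  simp only [assocθ, pullback.lift_fst_assoc, pullback.lift_snd]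

@[reassoc]
theorem assocθ_snd : assocθ sC sV sY sZ ≫ pullback.snd (prodS sC sV) (prodS sY sZ) =
    pullback.snd sC (prodS sV (prodS sY sZ)) ≫ pullback.snd sV (prodS sY sZ) := by
  simp only [assocθ, pullback.lift_snd]

/-- The inverse reassociation `(C × V) × (Y × Z) ⟶ C × (V × (Y × Z))`. -/
def assocθ' : pullback (prodS sC sV) (prodS sY sZ) ⟶ pullback sC (prodS sV (prodS sY sZ)) :=
  pullback.lift (pullback.fst (prodS sC sV) (prodS sY sZ) ≫ pullback.fst sC sV)
    (pullback.lift (pullback.fst (prodS sC sV) (prodS sY sZ) ≫ pullback.snd sC sV)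
      (pullback.snd (prodS sC sV) (prodS sY sZ))
      (by rw [Category.assoc, ← prodS_eq_snd sC sV, pullback.condition]))
    (by
      rw [prodS_eq_fst sV (prodS sY sZ), pullback.lift_fst_assoc, Category.assoc, Category.assoc,
        pullback.condition])

@[reassoc]
theorem assocθ'_fst : assocθ' sC sV sY sZ ≫ pullback.fst sC (prodS sV (prodS sY sZ)) =
    pullback.fst (prodS sC sV) (prodS sY sZ) ≫ pullback.fst sC sV := by
  simp only [assocθ', pullback.lift_fst]

@[reassoc]
theorem assocθ'_snd_fst : assocθ' sC sV sY sZ ≫ pullback.snd sC (prodS sV (prodS sY sZ)) ≫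
    pullback.fst sV (prodS sY sZ) = pullback.fst (prodS sC sV) (prodS sY sZ) ≫
      pullback.snd sC sV := by
  simp only [assocθ', pullback.lift_snd_assoc, pullback.lift_fst]

@[reassoc]
theorem assocθ'_snd_snd : assocθ' sC sV sY sZ ≫ pullback.snd sC (prodS sV (prodS sY sZ)) ≫
    pullback.snd sV (prodS sY sZ) = pullback.snd (prodS sC sV) (prodS sY sZ) := by
  simp only [assocθ', pullback.lift_snd_assoc, pullback.lift_snd]

theorem assocθ'_assocθ : assocθ' sC sV sY sZ ≫ assocθ sC sV sY sZ = 𝟙 _ := by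
  apply w4_ext
  · simp only [Category.assoc, assocθ_fst_fst, assocθ'_fst, Category.id_comp]
  · simp only [Category.assoc, assocθ_fst_snd, assocθ'_snd_fst, Category.id_comp]
  · simp only [Category.assoc, assocθ_snd, assocθ'_snd_snd, Category.id_comp]

/-- The slice `C × (Y × Z) ⟶ (C × V) × (Y × Z)`, `(c, y, z) ↦ (c, v, y, z)`. -/
def insV (v : Pts sV) : pullback sC (prodS sY sZ) ⟶ pullback (prodS sC sV) (prodS sY sZ) :=
  pullback.lift (pullback.fst sC (prodS sY sZ) ≫ sliceL sC v) (pullback.snd sC (prodS sY sZ))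
    (by rw [Category.assoc, sliceL_prodS, pullback.condition])

@[reassoc]
theorem insV_fst (v : Pts sV) : insV sC sV sY sZ v ≫ pullback.fst (prodS sC sV) (prodS sY sZ) =
    pullback.fst sC (prodS sY sZ) ≫ sliceL sC v := by
  simp only [insV, pullback.lift_fst]

@[reassoc]
theorem insV_snd (v : Pts sV) : insV sC sV sY sZ v ≫ pullback.snd (prodS sC sV) (prodS sY sZ) =
    pullback.snd sC (prodS sY sZ) := by
  simp only [insV, pullback.lift_snd]

theorem insV_prodS (v : Pts sV) : insV sC sV sY sZ v ≫ prodS (prodS sC sV) (prodS sY sZ) =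
    prodS sC (prodS sY sZ) := by
  rw [prodS_eq_snd (prodS sC sV) (prodS sY sZ), insV_snd_assoc, ← prodS_eq_snd]

/-- The composite `T ⟶ C × T ⟶ (C × V) × (Y × Z)`, `t ↦ (c₀, t)`: structure map. -/
theorem theta1_prodS (c₀ : Pts sC) :
    (sliceR c₀ (prodS sV (prodS sY sZ)) ≫ assocθ sC sV sY sZ) ≫
      prodS (prodS sC sV) (prodS sY sZ) = prodS sV (prodS sY sZ) := by
  rw [prodS_eq_snd (prodS sC sV) (prodS sY sZ)]
  simp only [Category.assoc, assocθ_snd_assoc, sliceR_snd_assoc]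
  exact (prodS_eq_snd sV (prodS sY sZ)).symm

theorem theta1_fst (c₀ : Pts sC) :
    (sliceR c₀ (prodS sV (prodS sY sZ)) ≫ assocθ sC sV sY sZ) ≫
      pullback.fst (prodS sC sV) (prodS sY sZ) =
    pullback.fst sV (prodS sY sZ) ≫ sliceR c₀ sV := by
  apply pullback.hom_ext
  · simp only [Category.assoc, assocθ_fst_fst, sliceR_fst]
    exact Category.assoc _ _ _
  · simp only [Category.assoc, assocθ_fst_snd, sliceR_snd_assoc, sliceR_snd, Category.comp_id]

theorem theta1_snd (c₀ : Pts sC) :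
    (sliceR c₀ (prodS sV (prodS sY sZ)) ≫ assocθ sC sV sY sZ) ≫
      pullback.snd (prodS sC sV) (prodS sY sZ) = pullback.snd sV (prodS sY sZ) := by
  simp only [Category.assoc, assocθ_snd, sliceR_snd_assoc]

/-- The fibre `C × {t}` of `C × T` inside `(C × V) × (Y × Z)`. -/
theorem sliceL_assocθ (t : Pts (prodS sV (prodS sY sZ))) :
    sliceL sC t ≫ assocθ sC sV sY sZ =
      sliceL sC (ptSnd sV (prodS sY sZ) t) ≫ insV sC sV sY sZ (ptFst sV (prodS sY sZ) t) := by
  apply w4_ext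
  · simp only [Category.assoc, insV_fst_assoc, sliceL_fst, sliceL_fst_assoc, assocθ_fst_fst]
  · simp only [Category.assoc, insV_fst_assoc, sliceL_snd, sliceL_fst_assoc, assocθ_fst_snd,
      sliceL_snd_assoc, ptFst]
  · simp only [Category.assoc, insV_snd, assocθ_snd, sliceL_snd_assoc, sliceL_snd, ptSnd]

/-- A morphism into `C × (Y × Z)` with constant `C`-component `c₀`, composed with `insV v`,
factors through `{c₀} × T`. -/
theorem comp_insV_eq {P : Scheme.{u}} (c₀ : Pts sC) (v : Pts sV)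
    (j : P ⟶ pullback sC (prodS sY sZ))
    (hj : j ≫ pullback.fst sC (prodS sY sZ) = (j ≫ prodS sC (prodS sY sZ)) ≫ c₀.1)
    (hcond : ((j ≫ prodS sC (prodS sY sZ)) ≫ v.1) ≫ sV =
      (j ≫ pullback.snd sC (prodS sY sZ)) ≫ prodS sY sZ) :
    j ≫ insV sC sV sY sZ v = pullback.lift ((j ≫ prodS sC (prodS sY sZ)) ≫ v.1)
      (j ≫ pullback.snd sC (prodS sY sZ)) hcond ≫
        (sliceR c₀ (prodS sV (prodS sY sZ)) ≫ assocθ sC sV sY sZ) := by
  have hv : v.1 ≫ sV = 𝟙 _ := v.2
  apply w4_ext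
  · simp only [Category.assoc, insV_fst_assoc, sliceL_fst, Category.comp_id, assocθ_fst_fst,
      sliceR_fst]
    rw [hj]
    have : pullback.lift ((j ≫ prodS sC (prodS sY sZ)) ≫ v.1)
        (j ≫ pullback.snd sC (prodS sY sZ)) hcond ≫ prodS sV (prodS sY sZ) =
        j ≫ prodS sC (prodS sY sZ) := by
      show _ ≫ pullback.fst sV (prodS sY sZ) ≫ sV = _
      rw [pullback.lift_fst_assoc, Category.assoc, hv, Category.comp_id]
    rw [reassoc_of% this, Category.assoc]
  · simp only [Category.assoc, insV_fst_assoc, sliceL_snd, assocθ_fst_snd, sliceR_snd_assoc,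
      pullback.lift_fst]
    rfl
  · simp only [Category.assoc, insV_snd, assocθ_snd, sliceR_snd_assoc, pullback.lift_snd]

variable {sC sV sY sZ}

/-- The induction step of REDUCE: the cube property for `(V, Y, Z)` and `(C, Y, Z)`, `C` a
smooth proper curve, implies the cube property for `(C × V, Y, Z)` (seesaw on
`C × (V × Y × Z)`). -/
theorem cube3G_step [IsAlgClosed K] (hC : IsSmoothProperCurve sC) (hV : IsVar sV)
    (hY : IsVar sY) (hZ : IsVar sZ) (w₀ : Pts (prodS sC sV)) (y₀ : Pts sY) (z₀ : Pts sZ)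
    (H₁ : Cube3G sV sY sZ (ptSnd sC sV w₀) y₀ z₀)
    (H₂ : Cube3G sC sY sZ (ptFst sC sV w₀) y₀ z₀) :
    Cube3G (prodS sC sV) sY sZ w₀ y₀ z₀ := by
  intro _ M hM F₁ F₂ F₃
  have hCv : IsVar sC := isVar_of_curve hC
  have hYZ : IsVar (prodS sY sZ) := isVar_prod hY hZ
  have hT : IsVar (prodS sV (prodS sY sZ)) := isVar_prod hV hYZ
  have hCT : IsVar (prodS sC (prodS sV (prodS sY sZ))) := isVar_prod hCv hT
  have hCYZ : IsVar (prodS sC (prodS sY sZ)) := isVar_prod hCv hYZ
  have : IsIntegral C := hC.integral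
  have : IsIntegral (pullback sV (prodS sY sZ)) := hT.integral
  have : Smooth (prodS sV (prodS sY sZ)) := hT.smooth
  have : IsProper (prodS sV (prodS sY sZ)) := hT.proper
  have : IsIntegral (pullback sC (prodS sV (prodS sY sZ))) := hCT.integral
  have : IsIntegral (pullback sC (prodS sY sZ)) := hCYZ.integral
  -- (i) the restriction to `{c₀} × T`
  have hw₀ : (ptSnd sC sV w₀).1 ≫ sliceR (ptFst sC sV w₀) sV = w₀.1 := by
    apply pullback.hom_ext
    · rw [Category.assoc, sliceR_fst, ← Category.assoc, (ptSnd sC sV w₀).2, Category.id_comp]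
      rfl
    · rw [Category.assoc, sliceR_snd, Category.comp_id]; rfl
  have hN : Fam.LinEquiv (Fam.pullc (sliceR (ptFst sC sV w₀) (prodS sV (prodS sY sZ)) ≫
      assocθ sC sV sY sZ) M) 1 :=
    H₁ inferInstance _ (isCartier_pullc _ M hM)
      (faceTriv_pullc _ (theta1_prodS sC sV sY sZ _) _ _ (sliceR (ptFst sC sV w₀) sV)
        (theta1_fst sC sV sY sZ _) w₀ (ptSnd sC sV w₀) hw₀ M hM F₁)
      (faceTriv_pullc_id sY _ (theta1_prodS sC sV sY sZ _) _ _
        (by rw [← Category.assoc, theta1_snd]) y₀ M hM F₂)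
      (faceTriv_pullc_id sZ _ (theta1_prodS sC sV sY sZ _) _ _
        (by rw [← Category.assoc, theta1_snd]) z₀ M hM F₃)
  -- (ii) the restriction to `C × {t}`
  have h₁ : ∀ t : Pts (prodS sV (prodS sY sZ)),
      Fam.LinEquiv (Fam.pullc (sliceL sC t) (Fam.pullc (assocθ sC sV sY sZ) M)) 1 := by
    intro t
    -- the class `k^* M` on `C × (Y × Z)` is trivial by the cube property of `(C, Y, Z)`
    have hN' : Fam.LinEquiv
        (Fam.pullc (insV sC sV sY sZ (ptFst sV (prodS sY sZ) t)) M) 1 := by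
      refine H₂ inferInstance _ (isCartier_pullc _ M hM) ?_
        (faceTriv_pullc_id sY _ (insV_prodS sC sV sY sZ _) _ _
          (by rw [← Category.assoc, insV_snd]) y₀ M hM F₂)
        (faceTriv_pullc_id sZ _ (insV_prodS sC sV sY sZ _) _ _
          (by rw [← Category.assoc, insV_snd]) z₀ M hM F₃)
      intro P _ j hj
      have hcond : ((j ≫ prodS sC (prodS sY sZ)) ≫ (ptFst sV (prodS sY sZ) t).1) ≫ sV =
          (j ≫ pullback.snd sC (prodS sY sZ)) ≫ prodS sY sZ := by
        rw [Category.assoc, (ptFst sV (prodS sY sZ) t).2, Category.comp_id,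
          prodS_eq_snd sC (prodS sY sZ), Category.assoc]
      refine pullc_pullc_le_one j _ M hM ?_
      rw [comp_insV_eq sC sV sY sZ (ptFst sC sV w₀) _ j hj hcond]
      exact pullc_comp_le_one _ _ M hM hN
    refine pullc_pullc_le_one _ _ M hM ?_
    rw [sliceL_assocθ]
    exact pullc_comp_le_one _ _ M hM hN'
  -- (iii) seesaw
  have h₂ : Fam.LinEquiv (Fam.pullc (sliceR (ptFst sC sV w₀) (prodS sV (prodS sY sZ)))
      (Fam.pullc (assocθ sC sV sY sZ) M)) 1 :=
    pullc_pullc_le_one _ _ M hM hN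
  have hS : Fam.LinEquiv (Fam.pullc (assocθ sC sV sY sZ) M) 1 :=
    seesaw sC (prodS sV (prodS sY sZ)) hC (ptFst sC sV w₀) _ (isCartier_pullc _ M hM) h₁ h₂
  exact le_one_of_section _ (assocθ' sC sV sY sZ) (assocθ'_assocθ sC sV sY sZ) M hM hS

end Step

/-! ## The induction on the number of curve factors -/

section Induction

variable [IsAlgClosed K]

/-- Level 1: `(Z, C, C₂)` with `Z` a product of curves and `C`, `C₂` curves. -/
theorem cube3G_level1 {Z : Scheme.{u}} {sZ : Z ⟶ Spec (CommRingCat.of K)}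
    (hZ : IsCurveProd Z sZ) :
    ∀ (z₀ : Pts sZ) {C C₂ : Scheme.{u}} (sC : C ⟶ Spec (CommRingCat.of K))
      (sC₂ : C₂ ⟶ Spec (CommRingCat.of K)) (_ : IsSmoothProperCurve sC)
      (_ : IsSmoothProperCurve sC₂) (c₀ : Pts sC) (c₂ : Pts sC₂),
      Cube3G sZ sC sC₂ z₀ c₀ c₂ := by
  induction hZ with
  | pt X sX h =>
    intro z₀ C C₂ sC sC₂ _ _ c₀ c₂
    exact cube3G_of_isIso sX sC sC₂ z₀ c₀ c₂ h
  | prod C₃ sC₃ X' sX' hC₃ hX' X sX e he ih =>
    intro z₀ C C₂ sC sC₂ hC hC₂ c₀ c₂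
    have hV : IsVar sX' := isVar_of_isCurveProd hX'
    have hC₃v : IsVar sC₃ := isVar_of_curve hC₃
    have hCv : IsVar sC := isVar_of_curve hC
    have hC₂v : IsVar sC₂ := isVar_of_curve hC₂
    have hW : IsIntegral (pullback (prodS sC₃ sX') (prodS sC sC₂)) :=
      (isVar_prod (isVar_prod hC₃v hV) (isVar_prod hCv hC₂v)).integral
    refine cube3G_of_iso sC sC₂ e he z₀
      ⟨z₀.1 ≫ e.hom, by rw [Category.assoc, he]; exact z₀.2⟩ rfl c₀ c₂ hW ?_
    refine cube3G_step hC₃ hV hCv hC₂v _ c₀ c₂ (ih _ sC sC₂ hC hC₂ c₀ c₂) ?_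
    have : IsIntegral C₃ := hC₃.integral
    have : IsIntegral C := hC.integral
    have : IsIntegral C₂ := hC₂.integral
    have : IsIntegral (pullback sC sC₂) := (isVar_prod hCv hC₂v).integral
    have : IsIntegral (pullback sC₃ sC₂) := (isVar_prod hC₃v hC₂v).integral
    have : IsIntegral (pullback sC₃ sC) := (isVar_prod hC₃v hCv).integral
    have : IsIntegral (pullback sC₃ (prodS sC sC₂)) :=
      (isVar_prod hC₃v (isVar_prod hCv hC₂v)).integral
    exact cube3G_of_cubeProp3 sC₃ sC sC₂ _ c₀ c₂ (cube3_curves sC₃ sC sC₂ hC₃ hC hC₂ _ c₀ c₂)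

/-- Level 2: `(Y, Z, C)` with `Y`, `Z` products of curves and `C` a curve. -/
theorem cube3G_level2 {Y : Scheme.{u}} {sY : Y ⟶ Spec (CommRingCat.of K)}
    (hY : IsCurveProd Y sY) :
    ∀ (y₀ : Pts sY) {Z C : Scheme.{u}} (sZ : Z ⟶ Spec (CommRingCat.of K))
      (sC : C ⟶ Spec (CommRingCat.of K)) (_ : IsCurveProd Z sZ)
      (_ : IsSmoothProperCurve sC) (z₀ : Pts sZ) (c₀ : Pts sC),
      Cube3G sY sZ sC y₀ z₀ c₀ := by
  induction hY with
  | pt X sX h =>
    intro y₀ Z C sZ sC _ _ z₀ c₀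
    exact cube3G_of_isIso sX sZ sC y₀ z₀ c₀ h
  | prod C₂ sC₂ X' sX' hC₂ hX' X sX e he ih =>
    intro y₀ Z C sZ sC hZ hC z₀ c₀
    have hV : IsVar sX' := isVar_of_isCurveProd hX'
    have hC₂v : IsVar sC₂ := isVar_of_curve hC₂
    have hCv : IsVar sC := isVar_of_curve hC
    have hZv : IsVar sZ := isVar_of_isCurveProd hZ
    have hW : IsIntegral (pullback (prodS sC₂ sX') (prodS sZ sC)) :=
      (isVar_prod (isVar_prod hC₂v hV) (isVar_prod hZv hCv)).integral
    refine cube3G_of_iso sZ sC e he y₀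
      ⟨y₀.1 ≫ e.hom, by rw [Category.assoc, he]; exact y₀.2⟩ rfl z₀ c₀ hW ?_
    refine cube3G_step hC₂ hV hZv hCv _ z₀ c₀ (ih _ sZ sC hZ hC z₀ c₀) ?_
    have hW' : IsIntegral (pullback sZ (prodS sC₂ sC)) :=
      (isVar_prod hZv (isVar_prod hC₂v hCv)).integral
    exact cube3G_swap12 sZ sC₂ sC z₀ _ c₀ hW' (cube3G_level1 hZ z₀ sC₂ sC hC₂ hC _ c₀)

/-- Level 3: three products of curves. -/
theorem cube3G_level3 {X : Scheme.{u}} {sX : X ⟶ Spec (CommRingCat.of K)}
    (hX : IsCurveProd X sX) :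
    ∀ (x₀ : Pts sX) {Y Z : Scheme.{u}} (sY : Y ⟶ Spec (CommRingCat.of K))
      (sZ : Z ⟶ Spec (CommRingCat.of K)) (_ : IsCurveProd Y sY)
      (_ : IsCurveProd Z sZ) (y₀ : Pts sY) (z₀ : Pts sZ),
      Cube3G sX sY sZ x₀ y₀ z₀ := by
  induction hX with
  | pt X sX h =>
    intro x₀ Y Z sY sZ _ _ y₀ z₀
    exact cube3G_of_isIso sX sY sZ x₀ y₀ z₀ h
  | prod C sC X' sX' hC hX' X sX e he ih =>
    intro x₀ Y Z sY sZ hY hZ y₀ z₀
    have hV : IsVar sX' := isVar_of_isCurveProd hX'
    have hCv : IsVar sC := isVar_of_curve hC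
    have hYv : IsVar sY := isVar_of_isCurveProd hY
    have hZv : IsVar sZ := isVar_of_isCurveProd hZ
    have hW : IsIntegral (pullback (prodS sC sX') (prodS sY sZ)) :=
      (isVar_prod (isVar_prod hCv hV) (isVar_prod hYv hZv)).integral
    refine cube3G_of_iso sY sZ e he x₀
      ⟨x₀.1 ≫ e.hom, by rw [Category.assoc, he]; exact x₀.2⟩ rfl y₀ z₀ hW ?_
    refine cube3G_step hC hV hYv hZv _ y₀ z₀ (ih _ sY sZ hY hZ y₀ z₀) ?_
    have hW₁ : IsIntegral (pullback sY (prodS sZ sC)) :=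
      (isVar_prod hYv (isVar_prod hZv hCv)).integral
    have hW₂ : IsIntegral (pullback sY (prodS sC sZ)) :=
      (isVar_prod hYv (isVar_prod hCv hZv)).integral
    exact cube3G_swap12 sY sC sZ y₀ _ z₀ hW₂
      (cube3G_swap23 sY sZ sC y₀ z₀ _ hW₁ (cube3G_level2 hY y₀ sZ sC hZ hC z₀ _))

/-- P10 EXPORT (REDUCE): EXACT frozen signature of `Fermat.Agent.S26.cube3_curveProd`. -/
theorem cube3_curveProd_of_exports {X Y Z : Scheme.{u}} (sX : X ⟶ Spec (CommRingCat.of K))
    (sY : Y ⟶ Spec (CommRingCat.of K)) (sZ : Z ⟶ Spec (CommRingCat.of K))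
    (hX : IsCurveProd X sX) (hY : IsCurveProd Y sY) (hZ : IsCurveProd Z sZ)
    [IsIntegral X] [IsIntegral Y] [IsIntegral Z]
    [IsIntegral (pullback sY sZ)] [IsIntegral (pullback sX sZ)] [IsIntegral (pullback sX sY)]
    [IsIntegral (pullback sX (prodS sY sZ))]
    (x₀ : Pts sX) (y₀ : Pts sY) (z₀ : Pts sZ) :
    CubeProp3 sX sY sZ x₀ y₀ z₀ :=
  cubeProp3_of_cube3G sX sY sZ x₀ y₀ z₀ (cube3G_level3 hX x₀ sY sZ hY hZ y₀ z₀)

end Induction

end

end Fermat.Agent.S26.FORMAL.H2685
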