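import Fermat.Agent.S26.TChain
import Fermat.Agent.S26.TopA
import Fermat.Agent.S26.FORMAL.Quad2685

/-!
# S26 / P10 FORMAL (helper2685): assembly of the export `T_linEquiv` (Top.lean)

`T_linEquiv_of_chain` has EXACTLY the frozen signature of `Fermat.Agent.S26.T_linEquiv` and is
proved from the frozen exports of the OTHER packages only:
`exists_curveProd_dominant` (P8), `norm_descent` (P9), `seesaw` (P14), `cube3_curves` (P15),
the P5 calculus of `Fam.pullc`, `isIntegral_prod`, `stalk_isIntegrallyClosed_of_smooth`,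
`exists_ringHom_pullFun` (P6), `exists_nsmul_algHom` (P3).
The P10 exports REDUCE / CUBEX / QUAD are used in their proved forms
(`Reduce2685.lean`, `CubeX2685.lean`, `Quad2685.lean`), so the whole package P10 is closed.
-/

set_option autoImplicit false

universe u

open CategoryTheory CategoryTheory.Limits AlgebraicGeometry NeronModelInfra GoodReductionJacobian

namespace Fermat.Agent.S26.FORMAL.H2685

open Fermat.Agent.S26

noncomputable section

variable {K : Type u} [Field K] [IsAlgClosed K]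

variable {A : Scheme.{u}} {f : A ⟶ Spec (CommRingCat.of K)}

/-- (T), assembled from the cube chain: EXACT frozen signature of `T_linEquiv` (Top.lean). -/
theorem T_linEquiv_of_chain [IsIntegral A] (L : RelativeGroupLaw K f) (hc : L.IsCommutative)
    (hA : AbelianSchemePropertyBundle K f) (g : ℕ) [SmoothOfRelativeDimension g f]
    (n : ℕ) (hn : (n : K) ≠ 0)
    (D : Fam A) (hD : D.IsCartier) (hsym : Fam.LinEquiv (Fam.pullback (negMap L) D) D) :
    ∃ N : ℕ, 0 < N ∧
      Fam.LinEquiv ((Fam.pullback (L.schemeNsmul n) D) ^ N) (D ^ (N * n ^ 2)) := by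
  obtain ⟨X, sX, hXint, x₀, σ, N, hX, hprop, hsm, hσ, hσ₀, hN⟩ :=
    exists_curveProd_dominant L hc hA g
  have : Smooth f := hA.smooth
  have : IsProper f := hA.proper
  refine ⟨N, ?_, ?_⟩
  · -- the degree of a finite field extension is positive
    obtain ⟨-, ι, -, hfin, hrank⟩ := hN
    let _ := ι.toAlgebra
    have := hfin
    rw [← hrank]
    exact Module.finrank_pos
  · -- the class `M = [n]^* D - n² D`
    obtain ⟨φ, hφ⟩ := exists_nsmul_algHom L hc hA n hn
    have h1 : Fam.LinEquiv (Fam.pullback (L.schemeNsmul n) D) (Fam.pullc (L.schemeNsmul n) D) :=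
      pullback_le_pullc_of_ringHom (L.schemeNsmul n) (φ : FF f →+* FF f) (fun v => hφ v) D
    have hq : Fam.LinEquiv (Fam.pullc (σ ≫ L.schemeNsmul n) D) ((Fam.pullc σ D) ^ (n ^ 2)) :=
      quad_of_exports L hc hA sX hX x₀ σ hσ hσ₀ D hD hsym n
    have hPc : (Fam.pullc (L.schemeNsmul n) D).IsCartier :=
      isCartier_pullc (L.schemeNsmul n) D hD
    have hDc : ((D ^ (n ^ 2))⁻¹).IsCartier := isCartier_inv (isCartier_pow hD _)
    have hMc : (Fam.pullc (L.schemeNsmul n) D * (D ^ (n ^ 2))⁻¹).IsCartier :=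
      isCartier_mul hPc hDc
    -- `σ^* M` is trivial
    have h2 : Fam.LinEquiv (Fam.pullc σ (Fam.pullc (L.schemeNsmul n) D * (D ^ (n ^ 2))⁻¹)) 1 := by
      have ha := le_of_same (pullc_mul σ (Fam.pullc (L.schemeNsmul n) D)
        ((D ^ (n ^ 2))⁻¹) hPc hDc).1
      have hb : Fam.LinEquiv (Fam.pullc σ (Fam.pullc (L.schemeNsmul n) D))
          ((Fam.pullc σ D) ^ (n ^ 2)) :=
        le_trans (le_symm (pullc_comp σ (L.schemeNsmul n) D hD)) hq
      have hc' : Fam.LinEquiv (Fam.pullc σ ((D ^ (n ^ 2))⁻¹)) (((Fam.pullc σ D) ^ (n ^ 2))⁻¹) :=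
        le_trans (pullc_inv_le σ (D ^ (n ^ 2)) (isCartier_pow hD _))
          (le_inv (pullc_pow_le σ D hD (n ^ 2)))
      have hd := le_trans ha (le_mul hb hc')
      rwa [mul_inv_cancel] at hd
    -- norm descent
    have : IsProper sX := hprop
    have h3 : Fam.LinEquiv ((Fam.pullc (L.schemeNsmul n) D * (D ^ (n ^ 2))⁻¹) ^ N) 1 :=
      norm_descent sX f (fun y => stalk_isIntegrallyClosed_of_smooth f y) σ hσ N hN _ hMc h2
    have h4 := le_mul h3 (le_refl (D ^ (N * n ^ 2)))
    have e1 : (Fam.pullc (L.schemeNsmul n) D * (D ^ (n ^ 2))⁻¹) ^ N * D ^ (N * n ^ 2)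
        = (Fam.pullc (L.schemeNsmul n) D) ^ N := by
      rw [mul_pow, inv_pow, ← pow_mul, mul_comm (n ^ 2) N, mul_assoc, inv_mul_cancel, mul_one]
    rw [e1, one_mul] at h4
    exact le_trans (le_pow h1 N) h4

end

end Fermat.Agent.S26.FORMAL.H2685
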